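import Fermat.Agent.Auto.Qnew.Ident
import Fermat.Agent.Auto.Level.NonEis
import Mathlib.RingTheory.IntegralClosure.IsIntegralClosure.Basic
import Mathlib.RingTheory.Ideal.GoingUp

/-!
Traces satisfying the multiplicativity identities come from a character, which contradicts absolute
irreducibility of the residual representation.
-/

set_option autoImplicit false
set_option linter.unusedSectionVars false

noncomputable section

namespace Fermat.Agent.Auto.Qn

open IsLocalRing
open Fermat.Agent.Galois (GQ)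
open Fermat.Agent.Deform (Mat2 TraceNondeg)

theorem trace_mul_self {R : Type} [CommRing R] (A : Mat2 R) :
    (A * A).trace = A.trace * A.trace - 2 * A.det := by
  simp [Matrix.trace_fin_two, Matrix.det_fin_two, Matrix.mul_apply, Fin.sum_univ_two]
  ring

/-- A residual trace of the form `θ + χ θ⁻¹` is not that of a spanning representation. -/
theorem false_of_theta {κ k : Type} [Field κ] [Field k] (j : k →+* κ) (h2 : (2 : k) ≠ 0)
    {r : GQ →* Mat2 k} (hnd : TraceNondeg r) (θ : GQ →* κ) (χ : GQ →* κ)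
    (htr : ∀ g, j (r g).trace = θ g + χ g * θ g⁻¹) : False := by
  have hone : ∀ (f : GQ →* κ) g, f g * f g⁻¹ = 1 := fun f g => by
    rw [← map_mul, mul_inv_cancel, map_one]
  have htr2 : ∀ h, θ h = 1 → χ h = 1 → (r h).trace = 2 := fun h h1 h1' => j.injective (by
    have h3 : θ h⁻¹ = 1 := by have := hone θ h; rwa [h1, one_mul] at this
    rw [htr, h1, h1', h3, map_ofNat]; norm_num)
  refine false_of_unipotent hnd {g | θ g = 1 ∧ χ g = 1} (fun g h hh => ?_) (fun a ha b hb => ?_)
    (fun a b => ?_) (fun h hh => htr2 h hh.1 hh.2) fun h hh => ?_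
  · obtain ⟨h1, h1'⟩ := hh
    constructor
    · rw [map_mul, map_mul, h1, mul_one, hone]
    · rw [map_mul, map_mul, h1', mul_one, hone]
  · exact ⟨by rw [map_mul, ha.1, hb.1, one_mul], by rw [map_mul, ha.2, hb.2, one_mul]⟩
  · have : ∀ f : GQ →* κ, f (a * b * a⁻¹ * b⁻¹) = 1 := fun f => by
      rw [map_mul, map_mul, map_mul, mul_right_comm (f a) (f b), hone, one_mul, hone]
    exact ⟨this θ, this χ⟩
  · have e := htr2 (h * h) (by rw [map_mul, hh.1, one_mul]) (by rw [map_mul, hh.2, one_mul])
    rw [map_mul, trace_mul_self, htr2 h hh.1 hh.2] at e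
    have : (2 : k) * (r h).det = 2 * 1 := by linear_combination -e
    exact mul_left_cancel₀ h2 this

variable {O : Type} [CommRing O] [IsLocalRing O] {T : Type} [CommRing T] [IsLocalRing T] [Algebra O T]

set_option maxHeartbeats 800000 in
set_option synthInstance.maxHeartbeats 400000 in
/-- The scalar times `t² - (q+1)²` is nilpotent modulo any ideal containing the identities. -/
theorem mem_radical_of_idents [IsLocalHom (algebraMap O T)] (h2 : IsUnit (2 : O)) (tr : GQ → T) (ht1 : tr 1 = 2) (χ : GQ →* O)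
    (q k : ℕ) (σ : GQ) (r : GQ →* Mat2 (ResidueField O)) (hnd : TraceNondeg r)
    (hres : ∀ g, ∃ o : O, residue O o = (r g).trace ∧ tr g - algebraMap O T o ∈ maximalIdeal T)
    (I : Ideal T) (hm : ∀ a b, idMul tr q σ k a b ∈ I)
    (ht : ∀ a, idTrace tr q σ k (algebraMap O T (χ a)) a ∈ I) :
    ((q : T) ^ k - 1) * eOp tr q σ ∈ I.radical := by
  rw [Ideal.radical_eq_sInf, Ideal.mem_sInf]
  intro P hP
  obtain ⟨hIP, hPp⟩ := hP
  by_contra hQe
  haveI := hPp
  have he : eOp tr q σ ∉ P := fun h => hQe (P.mul_mem_left _ h)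
  have hQ : ((q : T) ^ k - 1) ∉ P := fun h => hQe (P.mul_mem_right _ h)
  set π := Ideal.Quotient.mk P
  let K := FractionRing (T ⧸ P)
  let ι := algebraMap (T ⧸ P) K
  have hι : ∀ {x : T}, x ∉ P → ι (π x) ≠ 0 := fun {x} hx h => hx (by
    rw [← Ideal.Quotient.eq_zero_iff_mem]
    exact IsFractionRing.injective (T ⧸ P) K (h.trans (map_zero _).symm))
  set φ : T →+* K := ι.comp π
  have hee : φ (eOp tr q σ * eOp tr q σ) ≠ 0 := hι fun h => (hPp.mem_or_mem h).elim he he
  have hker : ∀ {x : T}, eOp tr q σ * eOp tr q σ * x ∈ I → φ x = 0 := fun {x} hx => by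
    have h1 : φ (eOp tr q σ * eOp tr q σ * x) = 0 := by
      show ι (π _) = 0
      rw [Ideal.Quotient.eq_zero_iff_mem.mpr (hIP hx), map_zero]
    rw [map_mul] at h1
    exact (mul_eq_zero.mp h1).resolve_left hee
  set Q : K := φ ((q : T) ^ k - 1) with hQdef
  have hQ0 : Q ≠ 0 := hι hQ
  set v : GQ → K := fun g => φ (vOp tr σ k g)
  have hmul : ∀ a b, v a * v b = Q * v (a * b) := fun a b => by
    have := hker (hm a b)
    rw [map_sub, map_mul, map_mul, sub_eq_zero] at this
    exact this
  have hsum : ∀ a, v a + φ (algebraMap O T (χ a)) * v a⁻¹ = Q * φ (tr a) := fun a => by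
    have := hker (ht a)
    rw [map_sub, map_add, map_mul, map_mul, sub_eq_zero] at this
    exact this
  have h2K : φ (tr 1) ≠ 0 := by
    rw [ht1]
    refine hι fun h => hPp.ne_top (Ideal.eq_top_of_isUnit_mem _ h ?_)
    rw [show (2 : T) = algebraMap O T 2 from (map_ofNat _ 2).symm]
    exact h2.map _
  have hv1 : v 1 = Q := by
    by_contra h
    have h0 : v 1 = 0 := by
      have := hmul 1 1
      rw [mul_one] at this
      exact (mul_eq_mul_right_iff.mp this).resolve_left h
    have := hsum 1
    rw [inv_one, h0, mul_zero, add_zero] at this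
    exact mul_ne_zero hQ0 h2K this.symm
  let θ : GQ →* K :=
    { toFun := fun g => v g / Q
      map_one' := by rw [hv1, div_self hQ0]
      map_mul' := fun a b => by rw [div_mul_div_comm, hmul, mul_div_mul_left _ _ hQ0] }
  have hθ : ∀ a, φ (tr a) = θ a + φ (algebraMap O T (χ a)) * θ a⁻¹ := fun a => by
    show φ (tr a) = v a / Q + φ (algebraMap O T (χ a)) * (v a⁻¹ / Q)
    rw [mul_div_assoc', ← add_div, hsum, mul_div_cancel_left₀ _ hQ0]
  let B := integralClosure (T ⧸ P) K
  have hint : ∀ a, θ a ∈ B := fun a => by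
    refine ⟨Polynomial.X ^ 2 - (Polynomial.C (π (tr a)) * Polynomial.X -
      Polynomial.C (π (algebraMap O T (χ a)))), Polynomial.monic_X_pow_sub ?_, ?_⟩
    · refine (Polynomial.degree_sub_le _ _).trans_lt (max_lt ?_ ?_)
      · exact (Polynomial.degree_C_mul_X_le _).trans_lt (by norm_num)
      · exact Polynomial.degree_C_le.trans_lt (by norm_num)
    · simp only [Polynomial.eval₂_sub, Polynomial.eval₂_X_pow, Polynomial.eval₂_mul, Polynomial.eval₂_C,
        Polynomial.eval₂_X]
      show θ a ^ 2 - (φ (tr a) * θ a - φ (algebraMap O T (χ a))) = 0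
      have h1 : θ a * θ a⁻¹ = 1 := by rw [← map_mul, mul_inv_cancel, map_one]
      rw [hθ]
      linear_combination -φ (algebraMap O T (χ a)) * h1
  obtain ⟨N, hN⟩ := Ideal.exists_maximal B
  haveI := hN
  letI := Ideal.Quotient.field N
  let θB : GQ →* B :=
    { toFun := fun g => ⟨θ g, hint g⟩
      map_one' := Subtype.ext (map_one θ)
      map_mul' := fun a b => Subtype.ext (map_mul θ a b) }
  let ψ : T →+* B ⧸ N := (Ideal.Quotient.mk N).comp ((algebraMap (T ⧸ P) B).comp π)
  have hψ : maximalIdeal T ≤ RingHom.ker ψ := by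
    have h1 : (N.comap (algebraMap (T ⧸ P) B)).IsMaximal :=
      Ideal.isMaximal_comap_of_isIntegral_of_isMaximal N
    have h2 : ((N.comap (algebraMap (T ⧸ P) B)).comap π).IsMaximal :=
      Ideal.comap_isMaximal_of_surjective π Ideal.Quotient.mk_surjective
    rw [← IsLocalRing.eq_maximalIdeal h2]
    intro x hx
    exact Ideal.Quotient.eq_zero_iff_mem.mpr hx
  let χκ : GQ →* B ⧸ N := (ψ.comp (algebraMap O T)).toMonoidHom.comp χ
  haveI : IsLocalHom (ψ.comp (algebraMap O T)) := ⟨fun o ho => by
    by_contra hno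
    have h2 : algebraMap O T o ∈ maximalIdeal T → False := fun h =>
      ho.ne_zero (RingHom.mem_ker.mp (hψ h))
    have h3 : IsUnit (algebraMap O T o) := by
      by_contra h; exact h2 h
    have h4 : (ψ.comp (algebraMap O T)) o ≠ 0 := ho.ne_zero
    exact hno ((isUnit_map_iff (algebraMap O T) o).mp h3)⟩
  let j : ResidueField O →+* B ⧸ N := IsLocalRing.ResidueField.lift (ψ.comp (algebraMap O T))
  refine false_of_theta j ?_ hnd ((Ideal.Quotient.mk N).toMonoidHom.comp θB) χκ fun g => ?_
  · intro h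
    rw [← map_ofNat (residue O), residue_eq_zero_iff] at h
    exact h h2
  · obtain ⟨o, ho, hd⟩ := hres g
    rw [← ho]
    show j (residue O o) = _
    rw [ResidueField.lift_residue_apply]
    show ψ (algebraMap O T o) = _
    have e : ψ (tr g) = ψ (algebraMap O T o) := sub_eq_zero.mp (by rw [← map_sub]; exact RingHom.mem_ker.mp (hψ hd))
    rw [← e]
    show Ideal.Quotient.mk N (algebraMap (T ⧸ P) B (π (tr g))) =
      Ideal.Quotient.mk N (θB g) +
        Ideal.Quotient.mk N (algebraMap (T ⧸ P) B (π (algebraMap O T (χ g)))) *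
          Ideal.Quotient.mk N (θB g⁻¹)
    rw [← map_mul, ← map_add]
    exact congrArg _ (Subtype.ext (hθ g))

end Fermat.Agent.Auto.Qn
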