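import Fermat.Agent.Auto.Qnew.Pair
import Fermat.Agent.Auto.Qnew.CharLemma
import Fermat.Agent.Auto.Level.Piece
import Fermat.Agent.Auto.New
import Fermat.Agent.Deform.AbsIrred

/-!
On the residual part the classes with vanishing translate sums satisfy the relation at `q`.
-/

set_option autoImplicit false
set_option linter.unusedSectionVars false
set_option linter.style.haveILetI false
set_option synthInstance.maxHeartbeats 400000

noncomputable section

namespace Fermat.Agent.Auto.Qn

open IsLocalRing CongruenceSubgroup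
open Fermat.Agent.Galois (GQ)
open Fermat.Agent.GalRep (cyc cyc_frobenius)
open Fermat.Agent.Deform (Mat2)
open Fermat.Agent.Auto.Tw (embLat mapLat)

section Algebra

variable {R T : Type} [CommRing R] [CommRing T] [Algebra R T] {L : Type} [AddCommGroup L] [Module R L]
  {V : Submodule R L}

/-- The pairs agreeing on the part. -/
def agree (Φ : T →ₐ[R] Module.End R V) : Subalgebra R (T × Module.End R L) where
  carrier := {P | ∀ y : V, ((Φ P.1 y : V) : L) = P.2 y}
  mul_mem' {P P'} hP hP' y := by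
    rw [Prod.fst_mul, Prod.snd_mul, map_mul, Module.End.mul_apply, Module.End.mul_apply, hP, hP']
  add_mem' {P P'} hP hP' y := by
    rw [Prod.fst_add, Prod.snd_add, map_add, LinearMap.add_apply, LinearMap.add_apply,
      Submodule.coe_add, hP, hP']
  algebraMap_mem' r y := by
    rw [Prod.algebraMap_apply, AlgHom.commutes, Module.algebraMap_end_apply,
      Module.algebraMap_end_apply, Submodule.coe_smul]

theorem agree_idents (Φ : T →ₐ[R] Module.End R V) (tr : GQ → T) (X : GQ → Module.End R L)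
    (h : ∀ g (y : V), ((Φ (tr g) y : V) : L) = X g y) (q k : ℕ) (σ : GQ) (χ : GQ → R) :
    (∀ a b (y : V), ((Φ (idMul tr q σ k a b) y : V) : L) = idMul X q σ k a b y) ∧
      (∀ a (y : V), ((Φ (idTrace tr q σ k (algebraMap R T (χ a)) a) y : V) : L) =
        idTrace X q σ k (algebraMap R _ (χ a)) a y) ∧
      ∀ (n : ℕ) (y : V), ((Φ (eOp tr q σ ^ n) y : V) : L) = (eOp X q σ ^ n) y := by
  let Y : GQ → agree Φ := fun g => ⟨(tr g, X g), h g⟩
  let f := (RingHom.fst T (Module.End R L)).comp (agree Φ).val.toRingHom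
  let s := (RingHom.snd T (Module.End R L)).comp (agree Φ).val.toRingHom
  refine ⟨fun a b y => ?_, fun a y => ?_, fun n y => ?_⟩
  · have hm := (idMul Y q σ k a b).2 y
    have e1 := map_idMul Y q σ k f a b
    have e2 := map_idMul Y q σ k s a b
    exact e1 ▸ e2 ▸ hm
  · have hm := (idTrace Y q σ k (algebraMap R (agree Φ) (χ a)) a).2 y
    have e1 := map_idTrace Y q σ k f (algebraMap R (agree Φ) (χ a)) a
    have e2 := map_idTrace Y q σ k s (algebraMap R (agree Φ) (χ a)) a
    exact e1 ▸ e2 ▸ hm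
  · have hm := (eOp Y q σ ^ n).2 y
    have e1 := map_pow f (eOp Y q σ) n
    have e2 := map_pow s (eOp Y q σ) n
    rw [map_eOp] at e1 e2
    exact e1 ▸ e2 ▸ hm

/-- The annihilator of a vector. -/
def annVec (Φ : T →ₐ[R] Module.End R V) (y : V) : Ideal T where
  carrier := {t | Φ t y = 0}
  zero_mem' := by show Φ 0 y = 0; rw [map_zero, LinearMap.zero_apply]
  add_mem' {t t'} ht ht' := by
    show Φ (t + t') y = 0
    rw [map_add, LinearMap.add_apply, ht, ht', add_zero]
  smul_mem' t t' ht := by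
    show Φ (t * t') y = 0
    rw [map_mul, Module.End.mul_apply, ht, map_zero]

theorem mem_annVec {Φ : T →ₐ[R] Module.End R V} {y : V} {t : T} :
    t ∈ annVec Φ y ↔ Φ t y = 0 := Iff.rfl

theorem relOp_eq_sq_mul {F G E : Module.End R L} (hFG : F * G = 1) (hGF : G * F = 1) (q : ℕ)
    (hE : E = F + (q : Module.End R L) * G) :
    relOp q F = F ^ 2 * (E * E - (((q + 1) ^ 2 : ℕ) : Module.End R L)) := by
  have hFE : Commute F E := by
    rw [hE]
    exact (Commute.refl F).add_right ((Nat.cast_commute q F).symm.mul_right (hFG.trans hGF.symm))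
  have h1 : F ^ 2 + (q : Module.End R L) = E * F := by
    rw [hE, add_mul, mul_assoc, hGF, mul_one, sq]
  rw [relOp, h1, hFE.symm.mul_pow, (hFE.pow_pow 2 2).eq.symm, mul_sub, ← sq E,
    (Nat.cast_commute _ (F ^ 2)).eq]

end Algebra

section Trace

variable {O : Type} [CommRing O] [IsLocalRing O] {T : Type} [CommRing T] [IsLocalRing T] [Algebra O T]
  [IsLocalHom (algebraMap O T)]

/-- The trace of a lift and of its residual representation. -/
theorem exists_residual_trace (ρ : GaloisRepAdic T) (ρbar : ResidualGaloisRep (ResidueField O))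
    (hres : ρ.residual.IsEquiv (ρbar.baseChangeAlong (ResidueField.map (algebraMap O T))))
    {r : GQ →* Mat2 (ResidueField O)} (hr : Deform.RHasMatrix ρbar r) (σ : GQ) :
    ∃ o : O, residue O o = (r σ).trace ∧ ρ.trace σ - algebraMap O T o ∈ maximalIdeal T := by
  obtain ⟨o, ho⟩ := residue_surjective (R := O) (r σ).trace
  refine ⟨o, ho, ?_⟩
  obtain ⟨s, hs⟩ := Deform.exists_hasMatrix ρ
  obtain ⟨b', hb'⟩ := (Deform.HasMatrix.residual hs).of_equiv hres
  obtain ⟨b'', hb''⟩ := hr.baseChangeAlong (ResidueField.map (algebraMap O T))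
  have h1 := LinearMap.trace_eq_matrix_trace (ResidueField T) b'
    ((ρbar.baseChangeAlong (ResidueField.map (algebraMap O T))).ρ σ)
  have h2 := LinearMap.trace_eq_matrix_trace (ResidueField T) b''
    ((ρbar.baseChangeAlong (ResidueField.map (algebraMap O T))).ρ σ)
  rw [hb', h2, hb''] at h1
  obtain ⟨b, hb⟩ := hs
  have h3 : ρ.trace σ = (s σ).trace := by
    rw [GaloisRepAdic.trace, LinearMap.trace_eq_matrix_trace T b, hb]
  rw [← residue_eq_zero_iff, map_sub, h3, sub_eq_zero]
  have h4 : residue T (algebraMap O T o) = ResidueField.map (algebraMap O T) (residue O o) :=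
    (ResidueField.map_residue _ _).symm
  rw [h4, ho]
  have e1 : ((Deform.mapHom (residue T)).comp s σ).trace = residue T (s σ).trace := by
    simp [Deform.mapHom, Matrix.trace, Matrix.diag]
  have e2 : ((Deform.mapHom (ResidueField.map (algebraMap O T))).comp r σ).trace =
      ResidueField.map (algebraMap O T) (r σ).trace := by
    simp [Deform.mapHom, Matrix.trace, Matrix.diag]
  rw [← e1, ← e2]
  exact h1.symm

theorem trace_at_one (ρ : GaloisRepAdic T) : ρ.trace 1 = 2 := by
  rw [GaloisRepAdic.trace, map_one, LinearMap.trace_one, ρ.finrank_eq, Nat.cast_ofNat]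

end Trace

variable {p : ℕ} [Fact p.Prime] {O : Type} [CommRing O] [IsDomain O] [IsDiscreteValuationRing O]
  [IsAdicComplete (maximalIdeal O) O] [Finite (ResidueField O)]
  [Algebra ℤ_[p] O] [Module.Finite ℤ_[p] O] [CharZero O]
  {q m D : ℕ} [Fact q.Prime] [NeZero q] [NeZero m] [NeZero (q * m)] [NeZero (q * m * D)]
  [NeZero (m * D)] {Δ : Type} [CommGroup Δ] [Fintype Δ] {c : (ZMod (q * m))ˣ →* Δ}
  {c' : (ZMod m)ˣ →* Δ} {S : Finset ℕ} {a : ℕ → O}

theorem isUnit_two (hp2 : p ≠ 2) : IsUnit (2 : O) := by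
  by_contra h
  have h2 : (2 : O) ∈ maximalIdeal O := h
  have hp : (p : O) ∈ maximalIdeal O := natCast_p_mem p O
  obtain ⟨u, v, huv⟩ : IsCoprime (2 : ℤ) (p : ℤ) := by
    rw [Int.isCoprime_iff_nat_coprime, Int.natAbs_natCast]
    exact (Nat.coprime_primes Nat.prime_two Fact.out).mpr (Ne.symm hp2)
  have e := congrArg (Int.cast : ℤ → O) huv
  push_cast at e
  exact (maximalIdeal O).ne_top_iff_one.mp (maximalIdeal.isMaximal O).ne_top
    (e ▸ Ideal.add_mem _ (Ideal.mul_mem_left _ _ h2) (Ideal.mul_mem_left _ _ hp))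

theorem eOp_mem_twAlg {M : ℕ} [NeZero M] {c : (ZMod M)ˣ →* Δ} (hodd : Odd (Nat.card Δ)) (q : ℕ)
    (σ : GQ) : eOp (twTr M c p O) q σ ∈ twAlg M c O :=
  sub_mem (mul_mem (twTr_mem hodd σ) (twTr_mem hodd σ)) (natCast_mem _ _)

/-- Kernels of powers of `t² - (q+1)²` agree. -/
theorem eOp_apply_eq_zero {M : ℕ} [NeZero M] [NeZero (M * D)] {c : (ZMod M)ˣ →* Δ} (hD : D ∣ M)
    (hsq : Squarefree D) (hcD : ∀ u : (ZMod M)ˣ, ((u : ZMod M).val : ZMod D) = 1 → c u = 1)
    (hodd : Odd (Nat.card Δ)) (q : ℕ) (σ : GQ) :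
    ∀ (n : ℕ) {x : Lat M c O}, (eOp (twTr M c p O) q σ ^ n) x = 0 →
      eOp (twTr M c p O) q σ x = 0 := by
  haveI : Module.IsTorsionFree O (Lat M c O) := inferInstance
  intro n
  induction n with
  | zero => intro x hx; rw [pow_zero, Module.End.one_apply] at hx; rw [hx, map_zero]
  | succ n ih =>
    intro x hx
    rw [pow_succ, Module.End.mul_apply] at hx
    have h2 := ih hx
    exact InertiaAlg.eq_zero_of_cube (twAlg M c O) (eOp_mem_twAlg hodd q σ) (IsIntegral.of_finite O _)
      (fun z hz h => twAlg_sq_eq_zero hD hsq hcD hodd hz h) (by rw [h2, map_zero])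

set_option maxHeartbeats 1600000 in
/-- The relation at `q` for classes with vanishing translate sums. -/
theorem relOp_eq_zero_of_qnew (hp5 : 5 ≤ p) (hp : (p : O) ∈ maximalIdeal O) (hΔ : IsPGroup p Δ)
    (ρbar : ResidualGaloisRep (ResidueField O)) (habs : ρbar.IsAbsolutelyIrreducible)
    (hfrob : ∀ l : ℕ, l.Prime → l ∉ S → ∀ A : ValuationSubring (AlgebraicClosure ℚ),
      A.LiesOverPrime l → ∀ σ : GQ, A.IsFrobeniusAt σ l →
        LinearMap.charpoly (ρbar.ρ σ) = Polynomial.X ^ 2 -
          Polynomial.C (residue O (a l)) * Polynomial.X + Polynomial.C ((l : ResidueField O)))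
    (hqm : q.Coprime m) (hc : ∀ u, c' (ZMod.unitsMap (dvd_mul_left m q) u) = c u)
    (hD : D ∣ m) (hsq : Squarefree D)
    (hcD : ∀ u : (ZMod (q * m))ˣ, ((u : ZMod (q * m)).val : ZMod D) = 1 → c u = 1)
    (hpS : p ∈ S) (hMS : ∀ l : ℕ, l.Prime → l ∣ q * m → l ∈ S) (hqp : q ≠ p)
    {A : ValuationSubring (AlgebraicClosure ℚ)} (hA : A.LiesOverPrime q) {σ : GQ}
    (hσ : A.IsFrobeniusAt σ q) {x : Lat (q * m) c O} (hx : x ∈ latLoc (q * m) c O S a)
    (hnew : QNew q m (embLat (K := coeffField O) (mapLat (coeffMap O) x))) :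
    relOp q (galTw (q * m) c p O σ) x = 0 := by
  have hp2 : p ≠ 2 := by omega
  by_cases hne : latLoc (q * m) c O S a = ⊥
  · rw [hne, Submodule.mem_bot] at hx
    rw [hx, map_zero]
  have hDM : D ∣ q * m := dvd_mul_of_dvd_right hD q
  have hodd : Odd (Nat.card Δ) := by
    obtain ⟨e, he⟩ := IsPGroup.iff_card.mp hΔ
    rw [he]
    exact ((Fact.out : p.Prime).odd_of_ne_two hp2).pow
  obtain ⟨θ, H, Φ, hres, -, -, hquad⟩ := exists_levelRep (p := p) (M := q * m) (D := D) (c := c)
    (S := S) (a := a) ρbar hp2 hp hΔ hDM hsq hcD hpS hMS habs hfrob hne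
  have htr : ∀ g (y : latLoc (q * m) c O S a), ((Φ (H.ρ.trace g) y :
      latLoc (q * m) c O S a) : Lat (q * m) c O) = twTr (q * m) c p O g y := by
    intro g y
    have h := hquad g ⟨galTw (q * m) c p O g⁻¹ y, galTw_mem_latLoc g⁻¹ y.2⟩
    have e : galTw (q * m) c p O g (galTw (q * m) c p O g⁻¹ (y : Lat (q * m) c O)) =
        (y : Lat (q * m) c O) := by
      rw [← Module.End.mul_apply, galTw_mul_inv, Module.End.one_apply]
    have e' : (⟨galTw (q * m) c p O g (galTw (q * m) c p O g⁻¹ (y : Lat (q * m) c O)),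
        galTw_mem_latLoc g (galTw_mem_latLoc g⁻¹ y.2)⟩ : latLoc (q * m) c O S a) = y := Subtype.ext e
    dsimp only at h
    rw [e', e] at h
    rw [twTr, LinearMap.add_apply, Module.End.mul_apply, Module.algebraMap_end_apply]
    have h5 : galTw (q * m) c p O g (y : Lat (q * m) c O) +
        cycO (p := p) O g • galTw (q * m) c p O g⁻¹ (y : Lat (q * m) c O) =
        ((Φ (H.ρ.trace g) y : latLoc (q * m) c O S a) : Lat (q * m) c O) := by
      rw [← sub_eq_zero, ← h]; abel
    exact h5.symm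
  obtain ⟨r, hr⟩ := Deform.exists_rhasMatrix ρbar
  obtain ⟨k, hk, hid⟩ := exists_idents_tw (p := p) (O := O) (c := c) hqm hc hD hsq hcD hodd hqp hA hσ
  obtain ⟨h1, h2⟩ := hid x hnew
  obtain ⟨am, at', an⟩ := agree_idents Φ H.ρ.trace (twTr (q * m) c p O) htr q k σ (chiO p O)
  set y : latLoc (q * m) c O S a := ⟨x, hx⟩ with hy
  have hrad := mem_radical_of_idents (isUnit_two (p := p) (O := O) hp2) H.ρ.trace (trace_at_one H.ρ)
    (chiO p O) q k σ r (hr.traceNondeg habs) (fun g => exists_residual_trace H.ρ ρbar hres hr g)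
    (annVec Φ y) (fun a b => Subtype.ext ((am a b y).trans (h1 a b)))
    (fun a => Subtype.ext ((at' a y).trans (h2 a)))
  obtain ⟨n, hn⟩ := hrad
  rw [mul_pow, mem_annVec, map_mul, Module.End.mul_apply,
    show ((q : CuspForm.heckeLocal (q * m * D) (↑S : Set ℕ) O θ) ^ k - 1) ^ n = algebraMap O _ (((q : O) ^ k - 1) ^ n) by
      rw [map_pow, map_sub, map_pow, map_natCast, map_one],
    AlgHom.commutes, Module.algebraMap_end_apply] at hn
  have hQ : ((q : O) ^ k - 1) ^ n ≠ 0 := by
    refine pow_ne_zero _ (sub_ne_zero.mpr ?_)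
    have : 1 < q ^ k := Nat.one_lt_pow hk.ne' (Fact.out : q.Prime).one_lt
    exact_mod_cast this.ne'
  haveI : Module.IsTorsionFree O (Lat (q * m) c O) := inferInstance
  have hen : (eOp (twTr (q * m) c p O) q σ ^ n) x = 0 := by
    have := congrArg Subtype.val hn
    rw [Submodule.coe_smul, ZeroMemClass.coe_zero, an n y] at this
    exact (smul_eq_zero.mp this).resolve_left hQ
  have he := eOp_apply_eq_zero hDM hsq hcD hodd q σ n hen
  have hFG := galTw_mul_inv (M := q * m) (c := c) (p := p) (O := O) σ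
  have hGF : galTw (q * m) c p O σ⁻¹ * galTw (q * m) c p O σ = 1 := by
    rw [← map_mul, inv_mul_cancel, map_one]
  rw [relOp_eq_sq_mul hFG hGF q (E := twTr (q * m) c p O σ) (by
      rw [twTr, cyc_frobenius p Fact.out hqp hA hσ, map_natCast, map_natCast]),
    Module.End.mul_apply]
  exact (congrArg _ he).trans (map_zero _)

end Fermat.Agent.Auto.Qn
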