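import Fermat.Agent.Auto.Twist.Level
import Fermat.Agent.NewVec.Psi

/-!
The sum of the translates of a germ by `SL₂(𝔽_q)`, lifted to a level prime to `q`, and the germs
on which this sum vanishes before and after `diag(1, q)`.
-/

set_option autoImplicit false
set_option linter.unusedSectionVars false

noncomputable section

namespace Fermat.Agent.Auto.Qn

open CongruenceSubgroup
open Fermat.Agent.GalRep (IMat)
open Fermat.Agent.GalRep.Level (red red_eq_one_iff)
open Fermat.Agent.Auto.Tw (Germ sl sl_mul cj bM det_bM exists_conj_gamma gamma_le_gamma lv)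
open scoped MatrixGroups

variable {K : Type} [Field K] {q n : ℕ}

theorem det_coe_ne_zero (γ : SL(2, ℤ)) : (γ : IMat).det ≠ 0 := by
  rw [γ.det_coe]; exact one_ne_zero

/-- Congruent to one modulo both coprime moduli. -/
theorem mem_gamma_mul (hqn : q.Coprime n) {γ : SL(2, ℤ)} (h1 : γ ∈ Gamma q) (h2 : γ ∈ Gamma n) :
    γ ∈ Gamma (q * n) := by
  have key : ∀ x y : ℤ, (x : ZMod q) = y → (x : ZMod n) = y → (x : ZMod (q * n)) = y := by
    intro x y e e'
    rw [ZMod.intCast_eq_intCast_iff_dvd_sub] at e e' ⊢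
    push_cast
    exact IsCoprime.mul_dvd (Nat.isCoprime_iff_coprime.mpr hqn) e e'
  obtain ⟨a, b, c, d⟩ := Gamma_mem.mp h1
  obtain ⟨a', b', c', d'⟩ := Gamma_mem.mp h2
  exact Gamma_mem.mpr ⟨by simpa using key _ 1 (by simpa using a) (by simpa using a'),
    by simpa using key _ 0 (by simpa using b) (by simpa using b'),
    by simpa using key _ 0 (by simpa using c) (by simpa using c'),
    by simpa using key _ 1 (by simpa using d) (by simpa using d')⟩

/-- Fixed by the congruence subgroup of level `N`. -/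
def Fixed (N : ℕ) (F : Germ K) : Prop := ∀ δ ∈ Gamma N, sl (K := K) (δ : IMat) F = F

theorem fixed_mono {N N' : ℕ} (h : N ∣ N') {F : Germ K} (hF : Fixed N F) : Fixed N' F :=
  fun δ hδ => hF δ (gamma_le_gamma h hδ)

theorem fixed_sl {N : ℕ} {g : IMat} (hg : g.det ≠ 0) {F : Germ K} (hF : Fixed N F) :
    Fixed (N * g.det.natAbs) (sl (K := K) g F) := fun γ hγ => by
  obtain ⟨δ, hδ, e⟩ := exists_conj_gamma N hg hγ
  rw [sl_mul hg (det_coe_ne_zero γ), ← e, ← sl_mul (det_coe_ne_zero δ) hg, hF δ hδ]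

open Classical in
/-- A lift congruent to one modulo `n`. -/
def lft (q n : ℕ) (x : SL(2, ZMod q)) : SL(2, ℤ) :=
  if h : ∃ g : SL(2, ℤ), red q g = x ∧ g ∈ Gamma n then h.choose else 1

theorem lft_spec [NeZero q] [NeZero n] (hqn : q.Coprime n) (x : SL(2, ZMod q)) :
    red q (lft q n x) = x ∧ lft q n x ∈ Gamma n := by
  haveI := Fact.mk hqn
  have h := NewVec.exists_liftX q n x
  rw [lft, dif_pos h]
  exact h.choose_spec

variable [NeZero q] [NeZero n]

instance fintypeSL : Fintype SL(2, ZMod q) := Fintype.ofFinite _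

variable (K) in
/-- The sum of the translates. -/
def avgQ (q n : ℕ) [NeZero q] : Germ K →ₗ[K] Germ K :=
  ∑ x : SL(2, ZMod q), sl (K := K) (lft q n x : IMat)

theorem avgQ_apply (F : Germ K) :
    avgQ K q n F = ∑ x : SL(2, ZMod q), sl (K := K) (lft q n x : IMat) F := by
  simp [avgQ, LinearMap.sum_apply]

/-- On germs of level `q n` the sum does not depend on the lifts. -/
theorem avgQ_eq (hqn : q.Coprime n) {F : Germ K} (hF : Fixed (q * n) F)
    (l : SL(2, ZMod q) → SL(2, ℤ)) (hl : ∀ x, red q (l x) = x ∧ l x ∈ Gamma n) :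
    ∑ x : SL(2, ZMod q), sl (K := K) (l x : IMat) F = avgQ K q n F := by
  rw [avgQ_apply]
  refine Finset.sum_congr rfl fun x _ => ?_
  obtain ⟨h1, h1'⟩ := hl x
  obtain ⟨h2, h2'⟩ := lft_spec (q := q) (n := n) hqn x
  have hh : l x * (lft q n x)⁻¹ ∈ Gamma (q * n) :=
    mem_gamma_mul hqn (red_eq_one_iff.mp (by rw [map_mul, map_inv, h1, h2, mul_inv_cancel]))
      (mul_mem h1' (inv_mem h2'))
  conv_rhs => rw [← hF _ hh]
  rw [sl_mul (det_coe_ne_zero _) (det_coe_ne_zero _), ← Matrix.SpecialLinearGroup.coe_mul,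
    inv_mul_cancel_right]

theorem avgQ_mono {n' : ℕ} [NeZero n'] (h : n ∣ n') (hqn' : q.Coprime n') {F : Germ K}
    (hF : Fixed (q * n) F) : avgQ K q n' F = avgQ K q n F := by
  rw [avgQ_apply]
  exact avgQ_eq (Nat.Coprime.coprime_dvd_right h hqn') hF _ fun x =>
    ⟨(lft_spec hqn' x).1, gamma_le_gamma h (lft_spec hqn' x).2⟩

/-- The sum commutes with matrices of determinant prime to `q`. -/
theorem avgQ_sl [Fact q.Prime] (hqn : q.Coprime n) {g : IMat} (hg : g.det ≠ 0)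
    (hgq : ¬ (q : ℤ) ∣ g.det) {F : Germ K} (hF : Fixed (q * n) F) :
    avgQ K q (n * g.det.natAbs) (sl (K := K) g F) = sl (K := K) g (avgQ K q n F) := by
  haveI : NeZero (n * g.det.natAbs) :=
    ⟨mul_ne_zero (NeZero.ne n) (Int.natAbs_ne_zero.mpr hg)⟩
  have hqn' : q.Coprime (n * g.det.natAbs) :=
    hqn.mul_right ((Fact.out : q.Prime).coprime_iff_not_dvd.mpr fun h =>
      hgq (Int.natCast_dvd.mpr h))
  have hex : ∀ x, ∃ δ ∈ Gamma n, (δ : IMat) * g = g * (lft q (n * g.det.natAbs) x : IMat) := fun x =>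
    exists_conj_gamma n hg (lft_spec hqn' x).2
  choose δ hδ e using hex
  have hd0 : ((g.det : ℤ) : ZMod q) ≠ 0 := fun h =>
    hgq ((ZMod.intCast_zmod_eq_zero_iff_dvd _ _).mp h)
  set φ : SL(2, ZMod q) → SL(2, ZMod q) := fun x => red q (δ x)
  have hφ : Function.Injective φ := fun x y hxy => by
    set gb : Matrix (Fin 2) (Fin 2) (ZMod q) := g.map (Int.castRingHom (ZMod q))
    have hx : ∀ z : SL(2, ZMod q), (φ z : Matrix (Fin 2) (Fin 2) (ZMod q)) * gb = gb * z := fun z => by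
      conv_rhs => rw [← (lft_spec (q := q) hqn' z).1]
      have := congrArg (fun X : IMat => X.map (Int.castRingHom (ZMod q))) (e z)
      simp only [Matrix.map_mul] at this
      exact this
    have h2 : gb * (x : Matrix (Fin 2) (Fin 2) (ZMod q)) = gb * y := by rw [← hx, ← hx, hxy]
    have hdet : IsUnit gb.det := isUnit_iff_ne_zero.mpr (by
      show (g.map (Int.castRingHom (ZMod q))).det ≠ 0
      rw [show g.map (Int.castRingHom (ZMod q)) = (Int.castRingHom (ZMod q)).mapMatrix g from rfl,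
        ← RingHom.map_det]
      exact hd0)
    exact Subtype.ext (((Matrix.isUnit_iff_isUnit_det gb).mpr hdet).mul_left_cancel h2)
  let φe := Equiv.ofBijective φ (Finite.injective_iff_bijective.mp hφ)
  rw [avgQ_apply, ← avgQ_eq hqn hF (fun y => δ (φe.symm y))
    (fun y => ⟨φe.apply_symm_apply y, hδ _⟩), map_sum]
  refine Fintype.sum_equiv φe _ _ fun x => ?_
  rw [φe.symm_apply_apply, sl_mul hg (det_coe_ne_zero _), sl_mul (det_coe_ne_zero _) hg, e x]

variable (q n) in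
/-- Both sums vanish. -/
def QNew (F : Germ K) : Prop :=
  avgQ K q n F = 0 ∧ avgQ K q n (sl (K := K) (bM q 0) F) = 0

theorem qnew_zero : QNew q n (0 : Germ K) := ⟨map_zero _, by rw [map_zero, map_zero]⟩

theorem qnew_add {F G : Germ K} (hF : QNew q n F) (hG : QNew q n G) : QNew q n (F + G) :=
  ⟨by rw [map_add, hF.1, hG.1, add_zero], by rw [map_add, map_add, hF.2, hG.2, add_zero]⟩

theorem qnew_smul (r : K) {F : Germ K} (hF : QNew q n F) : QNew q n (r • F) :=
  ⟨by rw [map_smul, hF.1, smul_zero], by rw [map_smul, map_smul, hF.2, smul_zero]⟩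

theorem qnew_zsmul (r : ℤ) {F : Germ K} (hF : QNew q n F) : QNew q n (r • F) := by
  rw [← Int.cast_smul_eq_zsmul K]; exact qnew_smul _ hF

/-- A pair that passes `diag(1, q)`. -/
def GoodPair (q : ℕ) (g g' : IMat) : Prop :=
  g.det ≠ 0 ∧ ¬ (q : ℤ) ∣ g.det ∧ g * bM q 0 = bM q 0 * g'

theorem GoodPair.det_eq {g g' : IMat} (h : GoodPair q g g') : g'.det = g.det := by
  have e := congrArg Matrix.det h.2.2
  rw [Matrix.det_mul, Matrix.det_mul, mul_comm] at e
  exact (mul_left_cancel₀ (det_bM (NeZero.ne q) 0) e).symm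

theorem GoodPair.mul {g g' h h' : IMat} [Fact q.Prime] (a : GoodPair q g g') (b : GoodPair q h h') :
    GoodPair q (g * h) (g' * h') :=
  ⟨by rw [Matrix.det_mul]; exact mul_ne_zero a.1 b.1,
    by
      rw [Matrix.det_mul]
      exact fun hd => ((Nat.prime_iff_prime_int.mp (Fact.out : q.Prime)).dvd_or_dvd hd).elim a.2.1 b.2.1,
    by rw [mul_assoc, b.2.2, ← mul_assoc, a.2.2, mul_assoc]⟩

/-- Sums of translates by good pairs preserve the vanishing. -/
theorem qnew_sum [Fact q.Prime] (hqn : q.Coprime n) {ι : Type*} (s : Finset ι) (a : ι → K)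
    (g g' : ι → IMat) (hg : ∀ i ∈ s, GoodPair q (g i) (g' i)) {F : Germ K} (hF : Fixed (q * n) F)
    (hbF : Fixed (q * n) (sl (K := K) (bM q 0) F))
    (hS : Fixed (q * n) (∑ i ∈ s, a i • sl (K := K) (g i) F))
    (hbS : Fixed (q * n) (sl (K := K) (bM q 0) (∑ i ∈ s, a i • sl (K := K) (g i) F)))
    (h : QNew q n F) : QNew q n (∑ i ∈ s, a i • sl (K := K) (g i) F) := by
  set P := n * ∏ i ∈ s, (g i).det.natAbs
  have hP : P ≠ 0 := mul_ne_zero (NeZero.ne n)
    (Finset.prod_ne_zero_iff.mpr fun i hi => Int.natAbs_ne_zero.mpr (hg i hi).1)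
  haveI : NeZero P := ⟨hP⟩
  have hqP : q.Coprime P := hqn.mul_right (Nat.Coprime.prod_right fun i hi =>
    (Fact.out : q.Prime).coprime_iff_not_dvd.mpr fun h => (hg i hi).2.1 (Int.natCast_dvd.mpr h))
  have step : ∀ (G : Germ K) (m : IMat), Fixed (q * n) G → avgQ K q n G = 0 → ∀ i ∈ s,
      m.det = (g i).det → avgQ K q P (sl (K := K) m G) = 0 := fun G m hG h0 i hi hm => by
    have hm0 : m.det ≠ 0 := hm ▸ (hg i hi).1
    haveI : NeZero (n * m.det.natAbs) := ⟨mul_ne_zero (NeZero.ne n) (Int.natAbs_ne_zero.mpr hm0)⟩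
    rw [avgQ_mono (n := n * m.det.natAbs) (by
        rw [hm]; exact mul_dvd_mul_left n (Finset.dvd_prod_of_mem (fun i => (g i).det.natAbs) hi))
      hqP (by rw [← mul_assoc]; exact fixed_sl hm0 hG), avgQ_sl hqn hm0 (hm ▸ (hg i hi).2.1) hG,
      h0, map_zero]
  refine ⟨?_, ?_⟩
  · rw [← avgQ_mono (dvd_mul_right n _) hqP hS, map_sum]
    refine Finset.sum_eq_zero fun i hi => ?_
    rw [map_smul, step F _ hF h.1 i hi rfl, smul_zero]
  · rw [← avgQ_mono (dvd_mul_right n _) hqP hbS, map_sum, map_sum]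
    refine Finset.sum_eq_zero fun i hi => ?_
    have hb := det_bM (NeZero.ne q) 0
    rw [map_smul, map_smul, sl_mul (hg i hi).1 hb, (hg i hi).2.2,
      ← sl_mul hb (by rw [(hg i hi).det_eq]; exact (hg i hi).1),
      step _ _ hbF h.2 i hi (hg i hi).det_eq, smul_zero]

theorem Fixed.bM_of_gamma0 {ψ : ℤ → K} (h1 : ψ 1 = 1)
    (hψ : ∀ x y : ℤ, (x : ZMod (q * n)) = y → ψ x = ψ y) {F : Germ K} (hF : F ∈ lv (q * n) ψ) :
    Fixed (q * n) (sl (K := K) (bM q 0) F) := fun δ hδ => by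
  obtain ⟨h11, h12, h21, h22⟩ := Gamma_mem.mp hδ
  obtain ⟨b, hb⟩ := (Int.natCast_dvd_natCast.mpr (dvd_mul_right q n)).trans
    ((ZMod.intCast_zmod_eq_zero_iff_dvd _ _).mp h12)
  let δ' : SL(2, ℤ) := ⟨!![δ 0 0, b; (q : ℤ) * δ 1 0, δ 1 1], by
    have := δ.det_coe
    rw [Matrix.det_fin_two] at this
    rw [Matrix.det_fin_two_of]
    rw [hb] at this
    linear_combination this⟩
  have hδ' : δ' ∈ Gamma0 (q * n) := Gamma0_mem.mpr (by
    show (((q : ℤ) * δ 1 0 : ℤ) : ZMod (q * n)) = 0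
    rw [Int.cast_mul, h21, mul_zero])
  have hb0 := det_bM (NeZero.ne q) 0
  rw [sl_mul hb0 (det_coe_ne_zero δ),
    show bM q 0 * (δ : IMat) = (δ' : IMat) * bM q 0 by
      rw [Matrix.eta_fin_two (δ : IMat)]
      ext i j; fin_cases i <;> fin_cases j <;>
        simp [bM, δ', Matrix.mul_apply, Fin.sum_univ_two, hb] <;> ring,
    ← sl_mul (det_coe_ne_zero δ') hb0, hF.2 δ' hδ',
    show ψ (δ' 1 1) = 1 from (hψ (δ 1 1) 1 (by simpa using h22)).trans h1, one_smul]

theorem fixed_of_lv {ψ : ℤ → K} (h1 : ψ 1 = 1) {L : ℕ}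
    (hψ : ∀ x y : ℤ, (x : ZMod L) = y → ψ x = ψ y) {F : Germ K} (hF : F ∈ lv L ψ) :
    Fixed L F := fun δ hδ => by
  obtain ⟨-, -, h21, h22⟩ := Gamma_mem.mp hδ
  rw [hF.2 δ (Gamma0_mem.mpr h21), hψ (δ 1 1) 1 (by simpa using h22), h1, one_smul]

end Fermat.Agent.Auto.Qn
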