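import Fermat.Agent.Auto.Qnew.Traces
import Fermat.Agent.GalRep.Ordinary.Transfers

/-!
Classes of the lattice of `Γ₀(q m)` modulo prime powers: Galois action, and vanishing of both
corestrictions when both translate sums vanish.
-/

set_option autoImplicit false
set_option linter.unusedSectionVars false

noncomputable section

namespace Fermat.Agent.Auto.Qn

open CongruenceSubgroup IsLocalRing
open Fermat.Agent.Galois (GQ)
open Fermat.Agent.GalRep (IMat ParHom kummerGalois GoodIndex heckeHom)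
open Fermat.Agent.GalRep.Level (red red_eq_one_iff red_apply galG galG_restrict galG_eq_kummer isLevel_gamma0)
open Fermat.Agent.GalRep.Semistable (cosR cosR_mem exists_cosR cosR_inj corR alR alMat alMat_cancel)
open Fermat.Agent.Auto.Tw (bM embLat mapLat embLat_injective mapLat_injective gamma_le_gamma)
open scoped MatrixGroups

variable {L : ℕ} [NeZero L]

theorem grp_unit : grp L (1 : (ZMod L)ˣ →* Unit) = Gamma0 L :=
  le_antisymm grp_le_gamma0 fun _ h => ⟨h, fun _ _ => rfl⟩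

variable {O : Type} [CommRing O]

/-- A lattice element of level `Γ₀(L)` as a parabolic homomorphism of `Γ₀(L)`. -/
def toG0 (v : Lat L (1 : (ZMod L)ˣ →* Unit) O) : ParHom L O :=
  ⟨(v : Additive (grp L (1 : (ZMod L)ˣ →* Unit)) →+ O).comp
    (Subgroup.inclusion (grp_unit (L := L)).ge).toAdditive, fun _ h => v.2 _ h⟩

theorem toG0_apply (v : Lat L (1 : (ZMod L)ˣ →* Unit) O) (γ : Gamma0 L) :
    (toG0 v : Additive (Gamma0 L) →+ O) (Additive.ofMul γ) =
      (v : Additive (grp L (1 : (ZMod L)ˣ →* Unit)) →+ O)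
        (Additive.ofMul (Subgroup.inclusion (grp_unit (L := L)).ge γ)) := rfl

theorem toG0_eq_zero {v : Lat L (1 : (ZMod L)ˣ →* Unit) O} (h : toG0 v = 0) : v = 0 :=
  lat_ext_apply fun γ =>
    DFunLike.congr_fun (congrArg Subtype.val h) (Additive.ofMul (⟨γ, grp_le_gamma0 γ.2⟩ : Gamma0 L))

/-- The class of a lattice element along a map of coefficients. -/
def cls {n : ℕ} (f : O →+ ZMod n) (v : Lat L (1 : (ZMod L)ˣ →* Unit) O) : ParHom L (ZMod n) :=
  GalRep.parMap f (toG0 v)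

theorem cls_add {n : ℕ} (f : O →+ ZMod n) (v w : Lat L (1 : (ZMod L)ˣ →* Unit) O) :
    cls f (v + w) = cls f v + cls f w :=
  (congrArg _ (Subtype.ext rfl : toG0 (v + w) = toG0 v + toG0 w)).trans (map_add _ _ _)

theorem cls_sub {n : ℕ} (f : O →+ ZMod n) (v w : Lat L (1 : (ZMod L)ˣ →* Unit) O) :
    cls f (v - w) = cls f v - cls f w :=
  (congrArg _ (Subtype.ext rfl : toG0 (v - w) = toG0 v - toG0 w)).trans (map_sub _ _ _)

theorem cls_zero {n : ℕ} (f : O →+ ZMod n) : cls f (0 : Lat L (1 : (ZMod L)ˣ →* Unit) O) = 0 :=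
  (congrArg _ (Subtype.ext rfl : toG0 (0 : Lat L (1 : (ZMod L)ˣ →* Unit) O) = 0)).trans (map_zero _)

theorem cls_smul {n : ℕ} (f : O →+ ZMod n) (r : O) (v : Lat L (1 : (ZMod L)ˣ →* Unit) O) :
    cls f (r • v) = cls (f.comp (AddMonoidHom.mulLeft r)) v := rfl

theorem cls_nsmul {n : ℕ} (f : O →+ ZMod n) (j : ℕ) (v : Lat L (1 : (ZMod L)ˣ →* Unit) O) :
    cls f (j • v) = j • cls f v :=
  (congrArg _ (Subtype.ext rfl : toG0 (j • v) = j • toG0 v)).trans (map_nsmul _ _ _)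

/-- Hecke operators commute with maps of coefficients. -/
theorem parMap_heckeHom {ℓ : ℕ} (hℓ : GoodIndex L ℓ) {A B : Type} [AddCommGroup A] [AddCommGroup B]
    (f : A →+ B) (χ : ParHom L A) :
    GalRep.parMap f (heckeHom hℓ χ) = heckeHom hℓ (GalRep.parMap f χ) := by
  refine Subtype.ext (AddMonoidHom.ext fun x => ?_)
  obtain ⟨γ, rfl⟩ := Additive.ofMul.surjective x
  rw [GalRep.parMap_apply, GalRep.coe_heckeHom, GalRep.coe_heckeHom, GalRep.transferHom_apply,
    GalRep.transferHom_apply, map_sum]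
  rfl

variable {p : ℕ} [Fact p.Prime] [IsDomain O] [IsDiscreteValuationRing O] [Algebra ℤ_[p] O]
  [Module.Finite ℤ_[p] O] [CharZero O]

theorem cls_galLat {k : ℕ} [NeZero (p ^ k)] (f : O →+ ZMod (p ^ k)) (σ : GQ)
    (v : Lat L (1 : (ZMod L)ˣ →* Unit) O) :
    cls f (galLat L 1 p O σ v) = (kummerGalois L (p ^ k)).galois σ (cls f v) := by
  rw [← galG_eq_kummer]
  refine Subtype.ext ?_
  rw [galG_restrict (isLevel_grp (c := (1 : (ZMod L)ˣ →* Unit))) (isLevel_gamma0 L)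
    (grp_unit (L := L)).ge σ (χ := DS.parMap _ f (toParG v)) (χ' := cls f v) rfl,
    ← galLat_spec]
  rfl

theorem eq_zero_of_cls {v : Lat L (1 : (ZMod L)ˣ →* Unit) O} {D : ℕ} (hD : 0 < D)
    (h : ∀ (k : ℕ) [NeZero (p ^ k)] (f : O →+ ZMod (p ^ k)), D • cls f v = 0) : v = 0 :=
  nsmul_eq_zero_latG (p := p) hD fun k _ f => Subtype.ext (AddMonoidHom.ext fun x => by
    obtain ⟨γ, rfl⟩ := Additive.ofMul.surjective x
    exact DFunLike.congr_fun (congrArg Subtype.val (h k f))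
      (Additive.ofMul (⟨γ, grp_le_gamma0 γ.2⟩ : Gamma0 L)))

section Cor

variable {q m : ℕ} [NeZero q] [NeZero m] [NeZero (q * m)] [Fact q.Prime] {g : SL(2, ℤ)}
  (hg : g 1 0 = m ∧ g 1 1 = q) (hqm : ¬ q ∣ m)

theorem conj_value {A : Type*} [AddCommGroup A] {G : Subgroup SL(2, ℤ)} (χ : Additive G →+ A)
    (a z : G) : χ (Additive.ofMul (a * z * a⁻¹)) = χ (Additive.ofMul z) := by
  rw [ofMul_mul, ofMul_mul, ofMul_inv, map_add, map_add, map_neg]
  abel

theorem conj_mem_gamma0 {N : ℕ} (c : SL(2, ℤ)) {γ : SL(2, ℤ)} (hγ : γ ∈ Gamma N) :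
    c * γ * c⁻¹ ∈ Gamma0 N :=
  GalRep.Gamma_le_Gamma0 N ((Gamma_normal N).conj_mem γ hγ c)

variable {R : Type} [CommRing R] [IsDomain R] [CharZero R]

include hg hqm in
/-- If the translate sums vanish on `Γ(q m)` then every corestriction sum vanishes. -/
theorem corSum_eq_zero (χ : ParHom (q * m) R)
    (h : ∀ γ (hγ : γ ∈ Gamma (q * m)), ∑ x : SL(2, ZMod q),
      (χ : Additive (Gamma0 (q * m)) →+ R) (Additive.ofMul
        (⟨lft q m x * γ * (lft q m x)⁻¹, conj_mem_gamma0 _ hγ⟩ : Gamma0 (q * m))) = 0)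
    (γ : Gamma0 m) (e : Equiv.Perm (Option (Fin q))) (w : Option (Fin q) → Gamma0 (q * m))
    (hw : ∀ i, (cosR q m g i : IMat) * ((γ : SL(2, ℤ)) : IMat) =
      ((w i : SL(2, ℤ)) : IMat) * (cosR q m g (e i) : IMat)) :
    ∑ i, (χ : Additive (Gamma0 (q * m)) →+ R) (Additive.ofMul (w i)) = 0 := by
  classical
  have hcop : q.Coprime m := (Fact.out : q.Prime).coprime_iff_not_dvd.mpr hqm
  set c := cosR q m g
  have hex : ∀ (γ : Gamma0 m) i, ∃ j, c i * γ * (c j)⁻¹ ∈ Gamma0 (q * m) := fun γ i =>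
    exists_cosR hg hqm (mul_mem (cosR_mem hg i) γ.2)
  choose J hJ using hex
  have huniq : ∀ (γ : Gamma0 m) i j, c i * γ * (c j)⁻¹ ∈ Gamma0 (q * m) → J γ i = j := fun γ i j hj => by
    refine cosR_inj hg hqm ?_
    have h' := mul_mem (inv_mem (hJ γ i)) hj
    rwa [show (c i * γ * (c (J γ i))⁻¹)⁻¹ * (c i * γ * (c j)⁻¹) = c (J γ i) * (c j)⁻¹ by group] at h'
  let co : ∀ (γ : Gamma0 m), Option (Fin q) → Gamma0 (q * m) := fun γ i => ⟨_, hJ γ i⟩
  have hmul : ∀ a b i, J (a * b) i = J b (J a i) ∧ co (a * b) i = co a i * co b (J a i) := fun a b i => by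
    have e1 : c i * (a * b : Gamma0 m) * (c (J b (J a i)))⁻¹ =
        (co a i * co b (J a i) : Gamma0 (q * m)) := by
      simp only [co, Subgroup.coe_mul]; group
    have hj := huniq (a * b) i _ (e1 ▸ (co a i * co b (J a i)).2)
    exact ⟨hj, Subtype.ext (by show c i * _ * (c (J (a * b) i))⁻¹ = _; rw [hj]; exact e1)⟩
  have hbij : ∀ a, Function.Bijective (J a) := fun a => by
    refine Finite.injective_iff_bijective.mp fun i j hij => ?_
    have h1 : ∀ i, J (a * a⁻¹) i = i := fun i => huniq _ _ _ (by simp)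
    have := congrArg (J a⁻¹) hij
    rwa [← (hmul a a⁻¹ i).1, ← (hmul a a⁻¹ j).1, h1, h1] at this
  let ψ : Additive (Gamma0 m) →+ R := AddMonoidHom.mk'
    (fun z => ∑ i, (χ : Additive (Gamma0 (q * m)) →+ R) (Additive.ofMul (co z.toMul i))) fun a b => by
      simp only [toMul_add, fun i => (hmul a.toMul b.toMul i).2, ofMul_mul, map_add,
        Finset.sum_add_distrib]
      congr 1
      exact (hbij a.toMul).sum_comp
        (fun i => (χ : Additive (Gamma0 (q * m)) →+ R) (Additive.ofMul (co b.toMul i)))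
  -- the given data are these
  have hval : ∑ i, (χ : Additive (Gamma0 (q * m)) →+ R) (Additive.ofMul (w i)) =
      ψ (Additive.ofMul γ) := by
    show _ = ∑ i, (χ : Additive (Gamma0 (q * m)) →+ R) (Additive.ofMul (co γ i))
    refine Finset.sum_congr rfl fun i _ => ?_
    have e1 : c i * γ * (c (e i))⁻¹ = w i := by
      rw [mul_inv_eq_iff_eq_mul]
      exact Subtype.ext (by simpa only [Matrix.SpecialLinearGroup.coe_mul] using hw i)
    have hj := huniq γ i (e i) (e1 ▸ (w i).2)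
    congr 2
    refine Subtype.ext ?_
    show (w i : SL(2, ℤ)) = c i * (γ : SL(2, ℤ)) * (c (J γ i))⁻¹
    rw [hj, e1]
  rw [hval]
  -- the cosets of the triangular matrices
  let B := {x : SL(2, ZMod q) // x 1 0 = 0}
  let F : B × Option (Fin q) → SL(2, ZMod q) := fun y => y.1.1 * red q (c y.2)
  have hB : ∀ (x y : SL(2, ZMod q)), x 1 0 = 0 → y 1 0 = 0 → (x * y) 1 0 = 0 ∧ (x⁻¹) 1 0 = 0 :=
    fun x y hx hy => ⟨by simp [Matrix.mul_apply, Fin.sum_univ_two, hx, hy],
      by simp [Matrix.SpecialLinearGroup.coe_inv, Matrix.adjugate_fin_two, hx]⟩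
  have hlow : ∀ a : SL(2, ℤ), a ∈ Gamma0 m → (red q a) 1 0 = 0 → a ∈ Gamma0 (q * m) := fun a ha ha' =>
    mem_gamma0_mul hcop ((ZMod.intCast_zmod_eq_zero_iff_dvd _ _).mp ha') ha
  have hF : Function.Bijective F := by
    refine ⟨fun y y' hy => ?_, fun x => ?_⟩
    · have e1 : red q (c y.2 * (c y'.2)⁻¹) = y.1.1⁻¹ * y'.1.1 := by
        rw [map_mul, map_inv, eq_inv_mul_iff_mul_eq, ← mul_assoc, mul_inv_eq_iff_eq_mul]
        exact hy
      have hij : y.2 = y'.2 := cosR_inj hg hqm (hlow _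
        (mul_mem (cosR_mem hg _) (inv_mem (cosR_mem hg _)))
        (e1 ▸ (hB _ _ (hB _ _ y.1.2 y.1.2).2 y'.1.2).1))
      refine Prod.ext (Subtype.ext ?_) hij
      have := hy
      simp only [F, hij] at this
      exact mul_right_cancel this
    · obtain ⟨j, hj⟩ := exists_cosR hg hqm (δ := lft q m x)
        (GalRep.Gamma_le_Gamma0 m (lft_spec hcop x).2)
      refine ⟨(⟨x * (red q (c j))⁻¹, ?_⟩, j), inv_mul_cancel_right x _⟩
      rw [← (lft_spec (q := q) (n := m) hcop x).1, ← map_inv, ← map_mul, red_apply]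
      exact (ZMod.intCast_zmod_eq_zero_iff_dvd _ _).mpr
        ((Int.natCast_dvd_natCast.mpr (dvd_mul_right q m)).trans
          ((ZMod.intCast_zmod_eq_zero_iff_dvd _ _).mp (Gamma0_mem.mp hj)))
  have hzero : ∀ z (hz : z ∈ Gamma (q * m)),
      ψ (Additive.ofMul (⟨z, GalRep.Gamma_le_Gamma0 m (gamma_le_gamma (dvd_mul_left m q) hz)⟩ :
        Gamma0 m)) = 0 := by
    intro z hz
    have h0 := h z hz
    rw [← hF.sum_comp (fun x => (χ : Additive (Gamma0 (q * m)) →+ R) (Additive.ofMul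
      (⟨lft q m x * z * (lft q m x)⁻¹, conj_mem_gamma0 _ hz⟩ : Gamma0 (q * m))))] at h0
    have hterm : ∀ y, (χ : Additive (Gamma0 (q * m)) →+ R) (Additive.ofMul
        (⟨lft q m (F y) * z * (lft q m (F y))⁻¹, conj_mem_gamma0 _ hz⟩ : Gamma0 (q * m))) =
        (χ : Additive (Gamma0 (q * m)) →+ R) (Additive.ofMul
          (⟨c y.2 * z * (c y.2)⁻¹, conj_mem_gamma0 _ hz⟩ : Gamma0 (q * m))) := fun y => by
      let a : Gamma0 (q * m) := ⟨lft q m (F y) * (c y.2)⁻¹, hlow _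
        (mul_mem (GalRep.Gamma_le_Gamma0 m (lft_spec hcop _).2) (inv_mem (cosR_mem hg _))) (by
          rw [map_mul, map_inv, (lft_spec hcop _).1, show F y = y.1.1 * red q (c y.2) from rfl,
            mul_inv_cancel_right]
          exact y.1.2)⟩
      rw [← conj_value _ a ⟨c y.2 * z * (c y.2)⁻¹, conj_mem_gamma0 _ hz⟩]
      congr 2
      refine Subtype.ext ?_
      simp only [a, Subgroup.coe_mul, Subgroup.coe_inv]
      group
    simp only [hterm] at h0
    rw [Fintype.sum_prod_type] at h0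
    replace h0 : Fintype.card B • (∑ i, (χ : Additive (Gamma0 (q * m)) →+ R) (Additive.ofMul
        (⟨c i * z * (c i)⁻¹, conj_mem_gamma0 _ hz⟩ : Gamma0 (q * m)))) = 0 := by
      refine Eq.trans ?_ h0
      rw [← Finset.card_univ, ← Finset.sum_const]
    have hne : Fintype.card B ≠ 0 := (Fintype.card_pos_iff.mpr ⟨⟨1, by simp⟩⟩).ne'
    show ∑ i, (χ : Additive (Gamma0 (q * m)) →+ R) (Additive.ofMul (co
      ⟨z, GalRep.Gamma_le_Gamma0 m (gamma_le_gamma (dvd_mul_left m q) hz)⟩ i)) = 0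
    refine Eq.trans (Finset.sum_congr rfl fun i _ => ?_) ((smul_eq_zero.mp h0).resolve_left hne)
    have hj : J ⟨z, GalRep.Gamma_le_Gamma0 m (gamma_le_gamma (dvd_mul_left m q) hz)⟩ i = i :=
      huniq _ _ _ (conj_mem_gamma0 _ hz)
    congr 2
    refine Subtype.ext ?_
    show c i * z * (c (J _ i))⁻¹ = c i * z * (c i)⁻¹
    exact congrArg (fun j => c i * z * (c j)⁻¹) hj
  obtain ⟨N, hN, hpow⟩ := Tw.exists_pow_mem_gamma (q * m) (NeZero.ne _)
  refine smul_right_injective R hN.ne' ?_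
  show N • _ = N • (0 : R)
  rw [smul_zero, ← map_nsmul, ← ofMul_pow]
  exact hzero _ (hpow _)

include hg hqm in
theorem corR_parMap_eq_zero {n : ℕ} [NeZero n] (χ : ParHom (q * m) R)
    (h : ∀ γ (hγ : γ ∈ Gamma (q * m)), ∑ x : SL(2, ZMod q),
      (χ : Additive (Gamma0 (q * m)) →+ R) (Additive.ofMul
        (⟨lft q m x * γ * (lft q m x)⁻¹, conj_mem_gamma0 _ hγ⟩ : Gamma0 (q * m))) = 0)
    (f : R →+ ZMod n) : corR hg hqm (GalRep.parMap f χ) = 0 := by
  refine Subtype.ext (AddMonoidHom.ext fun z => ?_)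
  obtain ⟨γ, rfl⟩ := Additive.ofMul.surjective z
  obtain ⟨e, w, hw, hsum⟩ :=
    (GalRep.Semistable.exists_cor hg hqm (GalRep.parMap f χ)).choose_spec γ
  refine hsum.trans ?_
  simp only [GalRep.parMap_apply, ← map_sum]
  rw [corSum_eq_zero hg hqm χ h γ e w hw, map_zero]
  rfl

end Cor

section QNewClasses

variable {q m : ℕ} [NeZero q] [NeZero m] [NeZero (q * m)] [Fact q.Prime] {g : SL(2, ℤ)}

/-- Both corestrictions vanish on all classes. -/
def Cores (hg : g 1 0 = m ∧ g 1 1 = q) (hqm : ¬ q ∣ m)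
    (v : Lat (q * m) (1 : (ZMod (q * m))ˣ →* Unit) O) : Prop :=
  ∀ (k : ℕ) [NeZero (p ^ k)] (f : O →+ ZMod (p ^ k)),
    corR hg hqm (cls f v) = 0 ∧ corR hg hqm (alR hg (cls f v)) = 0

variable (hg : g 1 0 = m ∧ g 1 1 = q) (hqm : ¬ q ∣ m)

theorem alMat_eq (hg : g 1 0 = m ∧ g 1 1 = q) :
    ∃ k ∈ Gamma0 m, alMat q g = bM q 0 * (k : IMat) := by
  refine ⟨⟨!![(q : ℤ) * g 0 0, g 0 1; (m : ℤ), 1], ?_⟩, Newform.mem_Gamma0_iff_dvd.mpr dvd_rfl, ?_⟩
  · have := g.det_coe
    rw [Matrix.det_fin_two, hg.1, hg.2] at this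
    rw [Matrix.det_fin_two_of]
    linear_combination this
  · ext i j; fin_cases i <;> fin_cases j <;>
      simp [alMat, bM, Matrix.mul_apply, Fin.sum_univ_two, hg.1, hg.2, mul_comm]

include hg hqm in
/-- Classes with vanishing translate sums have vanishing corestrictions. -/
theorem cores_of_qnew (v : Lat (q * m) (1 : (ZMod (q * m))ˣ →* Unit) O)
    (hv : QNew q m (embLat (K := coeffField O) (mapLat (coeffMap O) v))) :
    Cores (p := p) hg hqm v := by
  classical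
  have hcop : q.Coprime m := (Fact.out : q.Prime).coprime_iff_not_dvd.mpr hqm
  have hc : ∀ u, (1 : (ZMod m)ˣ →* Unit) (ZMod.unitsMap (dvd_mul_left m q) u) =
      (1 : (ZMod (q * m))ˣ →* Unit) u := fun _ => rfl
  set A1 := carrier_one (c' := (1 : (ZMod m)ˣ →* Unit)) hcop hc
  set A2 := carrier_bM (c' := (1 : (ZMod m)ˣ →* Unit)) hcop hc
  have t1 : A1.traceMap v = 0 := by
    refine mapLat_injective (coeffMap O) (coeffMap_injective O) (embLat_injective (K := coeffField O) ?_)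
    rw [A1.mapLat_traceMap, A1.embLat_traceMap, Tw.sl_one, hv.1, map_zero, map_zero]
  have t2 : A2.traceMap v = 0 := by
    refine mapLat_injective (coeffMap O) (coeffMap_injective O) (embLat_injective (K := coeffField O) ?_)
    rw [A2.mapLat_traceMap, A2.embLat_traceMap, hv.2, map_zero, map_zero]
  have hmemH : ∀ {γ}, γ ∈ Gamma (q * m) → ∀ x,
      lft q m x * γ * (lft q m x)⁻¹ ∈ grp m (1 : (ZMod m)ˣ →* Unit) ⊓ Gamma q := fun {γ} hγ x => by
    have h := (Gamma_normal (q * m)).conj_mem γ hγ (lft q m x)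
    exact ⟨gamma_le_grp (gamma_le_gamma (dvd_mul_left m q) h), gamma_le_gamma (dvd_mul_right q m) h⟩
  have hT : ∀ {A : IMat} (hA : Carrier A (1 : (ZMod (q * m))ˣ →* Unit) (1 : (ZMod m)ˣ →* Unit)),
      hA.traceMap v = 0 → ∀ γ (hγ : γ ∈ Gamma (q * m)), ∑ x : SL(2, ZMod q),
        (v : Additive (grp (q * m) (1 : (ZMod (q * m))ˣ →* Unit)) →+ O)
          (Additive.ofMul (hA.phi ⟨_, hmemH hγ x⟩)) = 0 := by
    intro A hA h0 γ hγ
    have hγ' : γ ∈ grp m (1 : (ZMod m)ˣ →* Unit) :=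
      gamma_le_grp (gamma_le_gamma (dvd_mul_left m q) hγ)
    have h1 : hA.sumHom v (Additive.ofMul (⟨γ, hγ'⟩ : grp m (1 : (ZMod m)ˣ →* Unit))) = 0 := by
      rw [← hA.coe_traceMap, h0]; rfl
    rw [hA.sumHom_apply] at h1
    refine Eq.trans (Finset.sum_congr rfl fun x _ => ?_) h1
    congr 3
    refine Subtype.ext ?_
    show lft q m x * γ * (lft q m x)⁻¹ = gco q m x γ
    rw [gco, red_eq_one_iff.mpr (gamma_le_gamma (dvd_mul_right q m) hγ), mul_one]
  intro k _ f
  refine ⟨corR_parMap_eq_zero hg hqm (toG0 v) (fun γ hγ => ?_) f, ?_⟩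
  · refine Eq.trans (Finset.sum_congr rfl fun x _ => ?_) (hT A1 t1 γ hγ)
    rw [toG0_apply]
    congr 2
    exact (A1.phi_unique (γ := ⟨_, hmemH hγ x⟩)
      (δ := Subgroup.inclusion (grp_unit (L := q * m)).ge ⟨_, conj_mem_gamma0 _ hγ⟩)
      (by rw [mul_one, one_mul]; rfl)).symm
  · set χ₁ := (GalRep.Semistable.exists_al hg (toG0 v)).choose with hχ₁
    have hal : alR hg (GalRep.parMap f (toG0 v)) = GalRep.parMap f χ₁ := by
      refine Subtype.ext (AddMonoidHom.ext fun z => ?_)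
      obtain ⟨γ, rfl⟩ := Additive.ofMul.surjective z
      obtain ⟨e, w, hw, hsum⟩ := (GalRep.Semistable.exists_al hg (GalRep.parMap f (toG0 v))).choose_spec γ
      obtain ⟨e', w', hw', hsum'⟩ := (GalRep.Semistable.exists_al hg (toG0 v)).choose_spec γ
      refine hsum.trans ?_
      rw [GalRep.parMap_apply]
      refine Eq.trans ?_ (congrArg f hsum'.symm)
      rw [map_sum]
      refine Finset.sum_congr rfl fun i _ => ?_
      rw [GalRep.parMap_apply, show w i = w' i from Subtype.ext (Subtype.ext (alMat_cancel (g := g) (q := q)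
        ((hw i).symm.trans (hw' i))))]
    show corR hg hqm (alR hg (GalRep.parMap f (toG0 v))) = 0
    rw [hal]
    refine corR_parMap_eq_zero hg hqm χ₁ (fun γ hγ => ?_) f
    obtain ⟨kk, hkk, ek⟩ := alMat_eq (q := q) (m := m) hg
    have hsum2 := hT A2 t2 γ hγ
    rw [← Equiv.sum_comp (Equiv.mulLeft (red q kk))] at hsum2
    refine Eq.trans (Finset.sum_congr rfl fun x _ => ?_) hsum2
    set z : Gamma0 (q * m) := ⟨lft q m x * γ * (lft q m x)⁻¹, conj_mem_gamma0 _ hγ⟩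
    obtain ⟨e', w', hw', hsum'⟩ := (GalRep.Semistable.exists_al hg (toG0 v)).choose_spec z
    refine hsum'.trans ?_
    rw [Fintype.sum_unique, toG0_apply]
    set y := (Equiv.mulLeft (red q kk)) x
    have hh : kk * lft q m x * (lft q m y)⁻¹ ∈ grp m (1 : (ZMod m)ˣ →* Unit) ⊓ Gamma q := by
      refine ⟨⟨mul_mem (mul_mem hkk (GalRep.Gamma_le_Gamma0 m (lft_spec hcop x).2))
        (inv_mem (GalRep.Gamma_le_Gamma0 m (lft_spec hcop y).2)), fun _ _ => rfl⟩, red_eq_one_iff.mp ?_⟩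
      rw [map_mul, map_mul, map_inv, (lft_spec hcop _).1, (lft_spec hcop _).1]
      simp [y]
    set η : ↥(grp m (1 : (ZMod m)ˣ →* Unit) ⊓ Gamma q) := ⟨_, hh⟩ with hη
    set ζ : ↥(grp m (1 : (ZMod m)ˣ →* Unit) ⊓ Gamma q) := ⟨_, hmemH hγ y⟩ with hζ
    have ephi : Subgroup.inclusion (grp_unit (L := q * m)).ge (w' default) =
        A2.phi η * A2.phi ζ * A2.phi η⁻¹ := by
      rw [← A2.phi_mul, ← A2.phi_mul]
      refine (A2.phi_unique ?_).symm
      have e1 := hw' default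
      rw [ek, mul_assoc (bM q 0), ← mul_assoc _ (bM q 0)] at e1
      have e2 : ((η * ζ * η⁻¹ : ↥(grp m (1 : (ZMod m)ˣ →* Unit) ⊓ Gamma q)) : SL(2, ℤ)) * kk =
          kk * (z : SL(2, ℤ)) := by
        simp only [hη, hζ, z, Subgroup.coe_mul, Subgroup.coe_inv]
        group
      have e3 := congrArg (fun s : SL(2, ℤ) => bM q 0 * (s : IMat)) e2
      simp only [Matrix.SpecialLinearGroup.coe_mul] at e3
      rw [e1, ← mul_assoc] at e3
      exact (Tw.eq_of_mul_eq (det_coe_ne_zero kk) e3.symm)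
    rw [ephi, show A2.phi η⁻¹ = (A2.phi η)⁻¹ from eq_inv_of_mul_eq_one_left (by
      rw [← A2.phi_mul, inv_mul_cancel]
      exact A2.phi_unique (by simp)), conj_value]

end QNewClasses

end Fermat.Agent.Auto.Qn
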