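import Fermat.Agent.Auto.Qnew.Ident
import Fermat.Agent.Auto.Inertia.Assemble

/-!
A Galois action with commuting traces: unipotent inertia, and the identities following from a toric
Frobenius on the fixed part.
-/

set_option autoImplicit false
set_option linter.unusedSectionVars false

noncomputable section

namespace Fermat.Agent.Auto.Qn

open IsLocalRing
open Fermat.Agent.Galois (GQ)
open Fermat.Agent.Auto.Reduce (redEnd redEnd_eq_iff)

theorem end_algebra {R L : Type*} [CommRing R] [AddCommGroup L] [Module R L] {F F' N T : Module.End R L}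
    {q : ℕ} (hq : ∀ x : Module.End R L, ((q : Module.End R L) - 1) * x = 0 → x = 0) (hF : F * F' = 1)
    (hF' : F' * F = 1) (hN : F * N * F' = (q : Module.End R L) * N)
    (hT : T = F + (q : Module.End R L) * F') (hTN : T * N = N * T) :
    N * (T * T - (((q + 1) ^ 2 : ℕ) : Module.End R L)) = 0 := by
  set c : Module.End R L := (q : Module.End R L)
  have hc : ∀ x, c * x = x * c := fun x => (Nat.cast_commute q x).eq
  have h1 : F * N = c * (N * F) := by
    calc F * N = F * N * F' * F := by rw [mul_assoc (F * N), hF', mul_one]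
      _ = c * (N * F) := by rw [hN, mul_assoc]
  have h2 : c * (F' * N) = N * F' := by
    calc c * (F' * N) = F' * (c * N) := by rw [← mul_assoc, hc F', mul_assoc]
      _ = F' * (F * N * F') := by rw [hN]
      _ = N * F' := by rw [← mul_assoc, ← mul_assoc, hF', one_mul]
  have h3 : c * (N * F) + N * F' = N * F + c * (N * F') :=
    calc c * (N * F) + N * F' = F * N + c * (F' * N) := by rw [h1, h2]
      _ = T * N := by rw [hT, add_mul, mul_assoc]
      _ = N * T := hTN
      _ = N * F + c * (N * F') := by rw [hT, mul_add, ← mul_assoc N, ← hc N, mul_assoc]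
  have h4 : N * F = N * F' := by
    refine sub_eq_zero.mp (hq _ ?_)
    rw [sub_mul, one_mul, mul_sub]
    calc c * (N * F) - c * (N * F') - (N * F - N * F')
        = (c * (N * F) + N * F') - (N * F + c * (N * F')) := by abel
      _ = 0 := by rw [h3, sub_self]
  have h5 : N * F * F = N := by rw [h4, mul_assoc, hF', mul_one]
  have h6 : N * T = (c + 1) * (N * F) := by
    rw [hT, mul_add, ← mul_assoc N, ← hc N, mul_assoc, ← h4, add_mul, one_mul, add_comm]
  have hFT : F * T = T * F := by
    rw [hT, mul_add, add_mul, ← mul_assoc F, ← hc F, mul_assoc, hF, mul_assoc c F', hF']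
  have h7 : N * (T * T) = (c + 1) * (c + 1) * N := by
    calc N * (T * T) = (c + 1) * (N * F) * T := by rw [← mul_assoc, h6]
      _ = (c + 1) * (N * T * F) := by rw [mul_assoc, mul_assoc N, hFT, mul_assoc N]
      _ = (c + 1) * (c + 1) * N := by rw [h6, mul_assoc _ (N * F) F, h5, mul_assoc]
  rw [mul_sub, h7, sub_eq_zero, ← (Nat.cast_commute ((q + 1) ^ 2) N).eq]
  push_cast
  rw [sq]

variable {O : Type} [CommRing O] [IsDomain O] [IsDiscreteValuationRing O] [CharZero O] {L : Type}
  [AddCommGroup L] [Module O L] [Module.Finite O L] [Module.Free O L]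

theorem nat_mul_cancel {n : ℕ} (hn : n ≠ 0) {x : L} (h : (n : O) • x = 0) : x = 0 :=
  (smul_eq_zero.mp h).resolve_left (Nat.cast_ne_zero.mpr hn)

variable {p q : ℕ} [Fact p.Prime] [NeZero q] (G : GQ →* Module.End O L)
  (T : GQ → Module.End O L) (χ : GQ →* O)
  (hT : ∀ g, T g = G g + algebraMap O (Module.End O L) (χ g) * G g⁻¹)
  (hcomm : ∀ g h, Commute (G g) (T h))
  {A : ValuationSubring (AlgebraicClosure ℚ)} {σ : GQ}

theorem gal_mul_inv (g : GQ) : G g * G g⁻¹ = 1 := by rw [← map_mul, mul_inv_cancel, map_one]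

theorem gal_inv_mul (g : GQ) : G g⁻¹ * G g = 1 := by rw [← map_mul, inv_mul_cancel, map_one]

include hT hcomm in
/-- `t² - (q+1)²` carries everything to vectors fixed by inertia. -/
theorem eOp_fixed (hpO : (p : O) ∈ maximalIdeal O) (hq : q.Prime) (hqp : q ≠ p)
    (hA : A.LiesOverPrime q) (hσ : A.IsFrobeniusAt σ q) (hχσ : χ σ = q)
    (hprod : ∀ s ∈ A.inertiaSubgroupIn ℚ, ∀ t ∈ A.inertiaSubgroupIn ℚ, (G s - 1) * (G t - 1) = 0)
    (hcont : ∀ k : ℕ, ∃ F : IntermediateField ℚ (AlgebraicClosure ℚ), FiniteDimensional ℚ F ∧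
      ∀ e : GQ, (∀ x ∈ F, e x = x) → ∀ v, G e v - v ∈ maximalIdeal O ^ k • (⊤ : Submodule O L))
    {s : GQ} (hs : s ∈ A.inertiaSubgroupIn ℚ) (v : L) :
    G s (eOp T q σ v) = eOp T q σ v := by
  haveI : IsNoetherian O L := isNoetherian_of_isNoetherianRing_of_finite O L
  have hcont' : ∀ k : ℕ, ∃ F : IntermediateField ℚ (AlgebraicClosure ℚ), FiniteDimensional ℚ F ∧
      ∀ e : GQ, (∀ x ∈ F, e x = x) → redEnd L k (G e) = 1 := fun k => by
    obtain ⟨F, hF, hFk⟩ := hcont k
    exact ⟨F, hF, fun e he => by
      rw [← map_one (redEnd L k), redEnd_eq_iff]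
      exact fun v => hFk e he v⟩
  have hres : ∀ t ∈ A.inertiaSubgroupIn ℚ, ∀ v : L, ∃ j : ℕ,
      ((G t - 1) ^ j) v ∈ maximalIdeal O • (⊤ : Submodule O L) := fun t ht v =>
    ⟨2, by rw [sq, hprod t ht t ht, LinearMap.zero_apply]; exact zero_mem _⟩
  have h := Core.map_frob_conj G (Fact.out : p.Prime) hpO hq hqp hA hcont' hres hσ hs
  have hpow : ∀ n : ℕ, G s ^ n = 1 + (n : Module.End O L) * (G s - 1) := fun n => by
    induction n with
    | zero => simp
    | succ n ih =>
      have h0 := hprod s hs s hs
      rw [pow_succ, ih, ← sub_add_cancel (G s) 1, mul_add, mul_one, add_mul, one_mul,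
        add_sub_cancel_right, mul_assoc, h0, mul_zero, Nat.cast_succ, add_mul, one_mul]
      abel
  rw [map_mul, map_mul, map_pow, hpow] at h
  have hN : G σ * (G s - 1) * G σ⁻¹ = (q : Module.End O L) * (G s - 1) := by
    rw [mul_sub, sub_mul, mul_one, gal_mul_inv, h]
    abel
  have hTσ : T σ = G σ + (q : Module.End O L) * G σ⁻¹ := by rw [hT, hχσ, map_natCast]
  have h1 := end_algebra (q := q) (fun x hx => LinearMap.ext fun v => ?_)
    (gal_mul_inv G σ) (gal_inv_mul G σ) hN hTσ ((hcomm s σ).symm.sub_right (Commute.one_right _)).eq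
  · have h' := LinearMap.congr_fun h1 v
    rw [Module.End.mul_apply, LinearMap.sub_apply, LinearMap.zero_apply, Module.End.one_apply,
      sub_eq_zero] at h'
    exact h'
  · refine nat_mul_cancel (O := O) (n := q - 1) (by have := hq.two_le; omega) ?_
    have h' := LinearMap.congr_fun hx v
    rw [Module.End.mul_apply, LinearMap.sub_apply, Module.End.natCast_apply, Module.End.one_apply,
      LinearMap.zero_apply] at h'
    rwa [Nat.cast_sub hq.one_lt.le, Nat.cast_one, sub_smul, one_smul, Nat.cast_smul_eq_nsmul]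

include hT hcomm in
/-- The identities, from the toric relation on the translates of a vector. -/
theorem idents_of_toric (hχσ : χ σ = q) (k : ℕ) (v : L)
    (htor : ∀ a : GQ, G (σ ^ k) (G σ (G σ (eOp T q σ (G a v))) - eOp T q σ (G a v)) -
      q ^ k • (G σ (G σ (eOp T q σ (G a v))) - eOp T q σ (G a v)) = 0) :
    (∀ a b : GQ, idMul T q σ k a b v = 0) ∧
      ∀ a : GQ, idTrace T q σ k (algebraMap O (Module.End O L) (χ a)) a v = 0 := by
  set F := G σ
  set e := eOp T q σ
  have hTσ : T σ = F + (q : Module.End O L) * G σ⁻¹ := by rw [hT, hχσ, map_natCast]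
  have hce : ∀ a, Commute (G a) e := fun a =>
    ((hcomm a σ).mul_right (hcomm a σ)).sub_right (Nat.cast_commute _ _).symm
  have hTe : ∀ a, Commute (T a) e := fun a => by
    rw [hT]
    exact (hce _).add_left (Commute.mul_left (Algebra.commutes _ _) (hce _))
  -- Frobenius is toric after two applications
  have hU : ∀ a : GQ, G (σ ^ k) (G a (e (e v))) = q ^ k • G a (e (e v)) := by
    intro a
    set y := e (G a v)
    set u := G (σ ^ k) y - q ^ k • y
    have hu : F (F u) = u := by
      have hc : ∀ z, F (G (σ ^ k) z) = G (σ ^ k) (F z) := fun z => by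
        rw [← Module.End.mul_apply, ← Module.End.mul_apply, ← map_mul, ← map_mul,
          (Commute.self_pow σ k).eq]
      rw [← sub_eq_zero, ← htor a]
      simp only [u, y, map_sub, map_nsmul, hc, smul_sub]
      abel
    have hu' : G σ⁻¹ u = F u := by
      conv_lhs => rw [← hu]
      rw [← Module.End.mul_apply, gal_inv_mul, Module.End.one_apply]
    have heu : e u = 0 := by
      have h1 : T σ u = (q + 1) • F u := by
        rw [hTσ, LinearMap.add_apply, Module.End.mul_apply, Module.End.natCast_apply, hu', succ_nsmul,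
          add_comm]
      show (T σ * T σ - _) u = 0
      rw [LinearMap.sub_apply, Module.End.mul_apply, h1, map_nsmul,
        show T σ (F u) = F (T σ u) from (LinearMap.congr_fun (hcomm σ σ).eq u).symm, h1,
        map_nsmul, hu, Module.End.natCast_apply, smul_smul, ← sq, sub_self]
    have hc2 : ∀ b z, e (G b z) = G b (e z) := fun b z => (LinearMap.congr_fun (hce b).eq z).symm
    simp only [u, map_sub, map_nsmul, y, hc2, sub_eq_zero] at heu
    exact heu
  have hV : ∀ a b : GQ, vOp T σ k a (G b (e (e v))) =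
      ((q : O) ^ k - 1) • G a (G b (e (e v))) := by
    intro a b
    set u := G b (e (e v))
    have h1 : G (σ ^ k) (G a u) = q ^ k • G a u := by
      have h := hU (a * b)
      rwa [map_mul, Module.End.mul_apply] at h
    have h2 : q ^ k • G (σ ^ k)⁻¹ u = u := by
      rw [← map_nsmul, ← hU b, ← Module.End.mul_apply, gal_inv_mul, Module.End.one_apply]
    rw [vOp, LinearMap.sub_apply, hT, hT, map_mul χ, map_pow χ, hχσ, mul_inv_rev, map_mul, map_mul]
    simp only [map_mul, LinearMap.add_apply, Module.End.mul_apply, Module.algebraMap_end_apply,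
      mul_smul]
    rw [h1, smul_comm ((q : O) ^ k) (χ a), ← map_smul (G a⁻¹) ((q : O) ^ k), ← Nat.cast_pow,
      Nat.cast_smul_eq_nsmul O, h2, sub_smul, one_smul, Nat.cast_smul_eq_nsmul O]
    abel
  have hV1 : ∀ a, vOp T σ k a (e (e v)) = ((q : O) ^ k - 1) • G a (e (e v)) := fun a => by
    simpa using hV a 1
  have hQ : ((q : Module.End O L) ^ k - 1) = algebraMap O (Module.End O L) ((q : O) ^ k - 1) := by
    rw [map_sub, map_pow, map_natCast, map_one]
  have hv : ∀ a, Commute (vOp T σ k a) e := fun a => (hTe _).sub_left (hTe _)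
  have swap : ∀ X : Module.End O L, Commute X e → (e * e * X) v = X (e (e v)) := fun X hX => by
    rw [← Module.End.mul_apply e e, ← Module.End.mul_apply X, (hX.mul_right hX).eq]
  constructor
  · intro a b
    rw [idMul, hQ, swap _ (((hv a).mul_left (hv b)).sub_left
      (Commute.mul_left (Algebra.commutes _ _) (hv _)))]
    simp only [LinearMap.sub_apply, Module.End.mul_apply, Module.algebraMap_end_apply, hV1, map_smul,
      hV, map_mul, sub_self]
  · intro a
    rw [idTrace, hQ, swap _ (((hv a).add_left (Commute.mul_left (Algebra.commutes _ _) (hv _))).sub_left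
      (Commute.mul_left (Algebra.commutes _ _) (hTe a)))]
    simp only [LinearMap.sub_apply, LinearMap.add_apply, Module.End.mul_apply,
      Module.algebraMap_end_apply, hV1, hT, smul_add, smul_smul,
      mul_comm ((q : O) ^ k - 1), sub_self]

end Fermat.Agent.Auto.Qn
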