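import Fermat.Agent.Galois.Places

/-!
Expressions in a family of traces.
-/

set_option autoImplicit false

noncomputable section

namespace Fermat.Agent.Auto.Qn

open Fermat.Agent.Galois (GQ)

variable {R R' : Type*} [Ring R] [Ring R'] (T : GQ → R) (q : ℕ) (σ : GQ) (k : ℕ)

/-- `t² - (q+1)²` at `σ`. -/
def eOp : R := T σ * T σ - (((q + 1) ^ 2 : ℕ) : R)

/-- `t(σᵏ g) - t(g)`. -/
def vOp (g : GQ) : R := T (σ ^ k * g) - T g

/-- The multiplicativity expression. -/
def idMul (g h : GQ) : R :=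
  eOp T q σ * eOp T q σ *
    (vOp T σ k g * vOp T σ k h - (((q : R)) ^ k - 1) * vOp T σ k (g * h))

/-- The trace expression. -/
def idTrace (χ : R) (g : GQ) : R :=
  eOp T q σ * eOp T q σ * (vOp T σ k g + χ * vOp T σ k g⁻¹ - ((q : R) ^ k - 1) * T g)

theorem map_eOp (f : R →+* R') : f (eOp T q σ) = eOp (fun g => f (T g)) q σ := by
  simp [eOp]

theorem map_idMul (f : R →+* R') (g h : GQ) :
    f (idMul T q σ k g h) = idMul (fun g => f (T g)) q σ k g h := by
  simp [idMul, eOp, vOp]

theorem map_idTrace (f : R →+* R') (χ : R) (g : GQ) :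
    f (idTrace T q σ k χ g) = idTrace (fun g => f (T g)) q σ k (f χ) g := by
  simp [idTrace, eOp, vOp]

end Fermat.Agent.Auto.Qn
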