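import Fermat.Agent.Auto.Qnew.Bridge
import Fermat.Agent.Auto.Qnew.Ident
import Fermat.Agent.Auto.Qnew.GeomAlg
import Fermat.Agent.Auto.Inertia.Trace
import Fermat.Agent.GalRep.InertiaZero
import Fermat.Agent.GalRep.Semistable.FixedClass
import Fermat.Agent.GalRep.Semistable.FrobFixed
import Fermat.Agent.NewVec.Hecke

/-!
The q-new classes at level `Γ₀(q m)`: inertia at `q` is unipotent, and Frobenius on the fixed part
is toric; hence the trace identities.
-/

set_option autoImplicit false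
set_option linter.unusedSectionVars false

noncomputable section

namespace Fermat.Agent.Auto.Qn

open CongruenceSubgroup IsLocalRing
open Fermat.Agent.Galois (GQ)
open Fermat.Agent.GalRep (ParHom kummerGalois GoodIndex heckeHom cyc cyc_frobenius)
open Fermat.Agent.GalRep.Semistable (corR alR corL_apply alL_apply)
open scoped MatrixGroups

variable {p : ℕ} [Fact p.Prime] {O : Type} [CommRing O] [IsDomain O] [IsDiscreteValuationRing O]
  [Algebra ℤ_[p] O] [Module.Finite ℤ_[p] O] [CharZero O]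
  {q m : ℕ} [NeZero q] [NeZero m] [NeZero (q * m)] [Fact q.Prime]

local notation "Λ" => Lat (q * m) (1 : (ZMod (q * m))ˣ →* Unit) O
local notation "Gal" => galLat (q * m) (1 : (ZMod (q * m))ˣ →* Unit) p O
local notation "Tr" => twTr (q * m) (1 : (ZMod (q * m))ˣ →* Unit) p O

theorem odd_card_unit : Odd (Nat.card Unit) := by simp

theorem galTw_unit (σ : GQ) : galTw (q * m) (1 : (ZMod (q * m))ˣ →* Unit) p O σ = Gal σ := by
  show Gal σ * latDia (q * m) 1 O _ = _
  rw [latDia_eq_one (M := q * m) (c := (1 : (ZMod (q * m))ˣ →* Unit)) (O := O) rfl, mul_one]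

theorem twTr_unit (σ : GQ) :
    Tr σ = Gal σ + algebraMap O (Module.End O Λ) (algebraMap ℤ_[p] O (cyc p σ).val) * Gal σ⁻¹ := by
  rw [twTr, galTw_unit, galTw_unit]

/-- The character of the determinant. -/
def chiO (p : ℕ) [Fact p.Prime] (O : Type) [CommRing O] [Algebra ℤ_[p] O] : GQ →* O :=
  ((algebraMap ℤ_[p] O).toMonoidHom.comp (Units.coeHom ℤ_[p])).comp (cyc p)

theorem twTr_unit' (σ : GQ) :
    Tr σ = Gal σ + algebraMap O (Module.End O Λ) (chiO p O σ) * Gal σ⁻¹ := twTr_unit σ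

theorem twTr_comm_galLat (σ g : GQ) : Commute (Gal g) (Tr σ) := by
  have h := commute_galTw (p := p) (twTr_mem (p := p) (M := q * m)
    (c := (1 : (ZMod (q * m))ˣ →* Unit)) (O := O) odd_card_unit σ) g
  rwa [galTw_unit] at h

theorem eq_zero_of_forall_coeff {x : O} {C : ℕ} (hC : 0 < C)
    (h : ∀ (k : ℕ) [NeZero (p ^ k)] (f : O →+ ZMod (p ^ k)), C • f x = 0) : x = 0 := by
  haveI := free_padic (p := p) (O := O)
  let b := Module.Free.chooseBasis ℤ_[p] O
  have h1 : C • x = 0 := b.ext_elem fun i => PadicInt.ext_of_toZModPow.mp fun k => by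
    haveI : NeZero (p ^ k) := ⟨pow_ne_zero _ (Fact.out : p.Prime).ne_zero⟩
    have := h k ((PadicInt.toZModPow k).toAddMonoidHom.comp (b.coord i).toAddMonoidHom)
    rw [← map_nsmul] at this
    rw [map_zero, Finsupp.zero_apply, map_zero]
    exact this
  exact (smul_eq_zero.mp h1).resolve_left hC.ne'

variable {A : ValuationSubring (AlgebraicClosure ℚ)}

/-- Inertia at `q` is unipotent of square zero. -/
theorem inertia_prod (hqp : q ≠ p) (hqm : ¬ q ∣ m) (hA : A.LiesOverPrime q) {s t : GQ}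
    (hs : s ∈ A.inertiaSubgroupIn ℚ) (ht : t ∈ A.inertiaSubgroupIn ℚ) :
    (Gal s - 1) * (Gal t - 1) = 0 := by
  obtain ⟨D, hD, h⟩ := GalRep.inertiaProdZero (q * m) q Fact.out (dvd_mul_right q m)
    (fun hd => hqm (Nat.dvd_of_mul_dvd_mul_left (NeZero.pos q) (sq q ▸ hd))) A hA s hs t ht
  refine LinearMap.ext fun v => eq_zero_of_cls (p := p) hD fun k _ f => ?_
  rw [← h (p ^ k) (not_dvd_pow_of_ne Fact.out hqp k) (cls f v)]
  congr 1
  simp only [Module.End.mul_apply, LinearMap.sub_apply, Module.End.one_apply, cls_sub, cls_galLat]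

variable {g : SL(2, ℤ)} (hg : g 1 0 = m ∧ g 1 1 = q) (hqm : ¬ q ∣ m)

theorem cores_smul (r : O) {v : Λ} (h : Cores (p := p) hg hqm v) : Cores (p := p) hg hqm (r • v) :=
  fun k _ f => by rw [cls_smul]; exact h k _

theorem cores_add {v w : Λ} (h : Cores (p := p) hg hqm v) (h' : Cores (p := p) hg hqm w) :
    Cores (p := p) hg hqm (v + w) := fun k _ f => by
  obtain ⟨a, b⟩ := h k f
  obtain ⟨a', b'⟩ := h' k f
  rw [cls_add, ← corL_apply hqm hg, ← corL_apply hqm hg, ← alL_apply hg, map_add, map_add, map_add]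
  simp only [corL_apply, alL_apply, a, b, a', b', add_zero, and_self]

theorem cores_galLat (s : GQ) {v : Λ} (h : Cores (p := p) hg hqm v) :
    Cores (p := p) hg hqm (Gal s v) := fun k _ f => by
  obtain ⟨a, b⟩ := h k f
  rw [cls_galLat, GalRep.Ordinary.corR_galois hg hqm, GalRep.Ordinary.alR_galois hg,
    GalRep.Ordinary.corR_galois hg hqm, a, b, map_zero]
  exact ⟨rfl, rfl⟩

theorem cores_twTr (s : GQ) {v : Λ} (h : Cores (p := p) hg hqm v) :
    Cores (p := p) hg hqm (Tr s v) := by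
  rw [twTr_unit, LinearMap.add_apply, Module.End.mul_apply, Module.algebraMap_end_apply]
  exact cores_add hg hqm (cores_galLat hg hqm _ h) (cores_smul hg hqm _ (cores_galLat hg hqm _ h))

theorem cores_eOp (σ : GQ) {v : Λ} (h : Cores (p := p) hg hqm v) :
    Cores (p := p) hg hqm (eOp Tr q σ v) := by
  rw [eOp, LinearMap.sub_apply, Module.End.mul_apply, Module.End.natCast_apply, sub_eq_add_neg,
    ← neg_one_smul O, ← Nat.cast_smul_eq_nsmul O]
  exact cores_add hg hqm (cores_twTr hg hqm _ (cores_twTr hg hqm _ h))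
    (cores_smul hg hqm _ (cores_smul hg hqm _ h))

include hg hqm in
/-- On inertia fixed classes with vanishing corestrictions `(F^k - q^k)(F² - 1) = 0`. -/
theorem exists_toric (hqp : q ≠ p) (hA : A.LiesOverPrime q) {σ : GQ} (hσ : A.IsFrobeniusAt σ q) :
    ∃ k : ℕ, 0 < k ∧ ∀ y : Λ, Cores (p := p) hg hqm y →
      (∀ s ∈ A.inertiaSubgroupIn ℚ, Gal s y = y) →
      Gal (σ ^ k) (Gal σ (Gal σ y) - y) - q ^ k • (Gal σ (Gal σ y) - y) = 0 := by
  haveI := GalRep.charP_residue (A := A) (Fact.out : q.Prime) hA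
  obtain ⟨M', _, hmM, hqM, hpts⟩ :=
    GalRep.Semistable.hasSemiModel (Fact.out : q.Prime) hA (NeZero.pos m) hqm
  haveI : NeZero M' := ⟨fun h => NeZero.ne (q * M') (by rw [h, mul_zero])⟩
  obtain ⟨k, C, hk, hC, hbound⟩ := GalRep.Semistable.exists_defect_bound hA hmM hqM hpts hσ
  obtain ⟨ℓ, hℓgt, hℓp, hℓmod⟩ := Nat.forall_exists_prime_gt_and_modEq (q * m)
    (NeZero.ne (q * m)) (Nat.coprime_one_left (q * m))
  have hℓM : ¬ ℓ ∣ q * m := fun h =>
    absurd (Nat.le_of_dvd (NeZero.pos (q * m)) h) (not_le.mpr hℓgt)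
  have hℓ : GoodIndex (q * m) ℓ := ⟨hℓp, hℓM⟩
  have hℓm : GoodIndex m ℓ := ⟨hℓp, fun h => hℓM (h.mul_left q)⟩
  have hℓ1 : (ℓ : ZMod (q * m)) = 1 := by
    rw [← Nat.cast_one, ZMod.natCast_eq_natCast_iff]
    exact hℓmod
  let l : GalRep.GoodPrime (q * m) := ⟨⟨ℓ, hℓp⟩, hℓM⟩
  refine ⟨k, hk, fun y hy hfix => toG0_eq_zero (NewVec.eq_zero_of_hecke_fixed l ?_)⟩
  set w := Gal (σ ^ k) (Gal σ (Gal σ y) - y) - q ^ k • (Gal σ (Gal σ y) - y)
  refine sub_eq_zero.mp ?_
  -- vanishing modulo every power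
  have key : ∀ (j : ℕ) [NeZero (p ^ j)] (f : O →+ ZMod (p ^ j)),
      C • GalRep.parMap f (heckeHom hℓ (toG0 w) - (ℓ + 1) • toG0 w) = 0 := by
    intro j _ f
    have hqn := not_dvd_pow_of_ne (p := p) (Fact.out : q.Prime) hqp j
    obtain ⟨F, φ, hF, hφ, hφ0, hφi, hφa, hφf, hcongr⟩ := GalRep.Semistable.exists_fixed_congr hg hqm
      hA hσ hℓm hℓ hℓ1 hqn (χ := cls f y) (fun s hs => by rw [← cls_galLat, hfix s hs])
      (hy j f).1 (hy j f).2
    have h0 := hbound (p ^ j) hqn _ F φ hF hφ hφ0 hφi hφa hφf hcongr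
    have hh : ∀ s, (kummerGalois (q * m) (p ^ j)).galois s (heckeHom hℓ (cls f y)) =
        heckeHom hℓ ((kummerGalois (q * m) (p ^ j)).galois s (cls f y)) := fun s => by
      rw [(kummerGalois _ _).galois_eq, (kummerGalois _ _).galois_eq]
      exact GalRep.autChar_transfer hℓ (GalRep.liftAut s) _
    rw [map_sub, parMap_heckeHom, map_nsmul]
    show C • (heckeHom hℓ (cls f w) - (ℓ + 1) • cls f w) = 0
    refine Eq.trans ?_ h0
    congr 1
    simp only [w, cls_sub, cls_nsmul, cls_galLat, map_sub, map_nsmul, hh, smul_sub]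
    have hh2 : ∀ s z, (kummerGalois (q * m) (p ^ j)).galois s (heckeHom hℓ z) =
        heckeHom hℓ ((kummerGalois (q * m) (p ^ j)).galois s z) := fun s z => by
      rw [(kummerGalois _ _).galois_eq, (kummerGalois _ _).galois_eq]
      exact GalRep.autChar_transfer hℓ (GalRep.liftAut s) _
    simp only [hh2, smul_comm (q ^ k) (ℓ + 1)]
    abel
  refine Subtype.ext (AddMonoidHom.ext fun x => ?_)
  show _ = (0 : O)
  refine eq_zero_of_forall_coeff (p := p) hC fun j _ f => ?_
  exact DFunLike.congr_fun (congrArg Subtype.val (key j f)) x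

include hg hqm in
/-- The trace identities on classes with vanishing corestrictions. -/
theorem exists_idents (hqp : q ≠ p) (hA : A.LiesOverPrime q) {σ : GQ} (hσ : A.IsFrobeniusAt σ q) :
    ∃ k : ℕ, 0 < k ∧ ∀ v : Λ, Cores (p := p) hg hqm v →
      (∀ a b : GQ, idMul Tr q σ k a b v = 0) ∧
      (∀ a : GQ, idTrace Tr q σ k
        (algebraMap O (Module.End O Λ) (chiO p O a)) a v = 0) := by
  obtain ⟨k, hk, htor⟩ := exists_toric (p := p) (O := O) hg hqm hqp hA hσ
  refine ⟨k, hk, fun v hv => ?_⟩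
  have hχσ : chiO p O σ = (q : O) := by
    show algebraMap ℤ_[p] O (cyc p σ).val = _
    rw [cyc_frobenius p Fact.out hqp hA hσ, map_natCast]
  refine idents_of_toric (O := O) (L := Λ) Gal Tr (chiO p O) twTr_unit' (fun a b => twTr_comm_galLat b a)
    hχσ k v fun a => htor _ (cores_eOp hg hqm σ (cores_galLat hg hqm a hv)) fun s hs => ?_
  exact eOp_fixed (O := O) (L := Λ) Gal Tr (chiO p O) twTr_unit' (fun a b => twTr_comm_galLat b a)
    (natCast_p_mem p O) Fact.out hqp hA hσ hχσ (fun s hs t ht => inertia_prod hqp hqm hA hs ht)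
    (galLat_continuous (M := q * m) (c := (1 : (ZMod (q * m))ˣ →* Unit))) hs _

end Fermat.Agent.Auto.Qn
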