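import Fermat.Agent.Auto.Qnew.Kills

/-!
The germs with vanishing translate sums at an exactly dividing prime are stable under twisting.
-/

set_option autoImplicit false
set_option linter.unusedSectionVars false

noncomputable section

namespace Fermat.Agent.Auto.Qn

open CongruenceSubgroup
open Fermat.Agent.GalRep (IMat)
open Fermat.Agent.Auto.Tw (Germ sl bM dM alM det_bM det_dM det_alM lv opU_apply opS_apply tw_apply
  opS_mem_lv)
open scoped MatrixGroups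

variable {K : Type} [Field K] [CharZero K] {q n : ℕ} [NeZero q] [NeZero n] [NeZero (q * n)]
  [Fact q.Prime]

theorem goodPair_bM {ℓ : ℕ} (hℓ : ℓ ≠ 0) (hq : ¬ q ∣ ℓ) (j : ℤ) :
    GoodPair q (bM ℓ j) (bM ℓ ((q : ℤ) * j)) :=
  ⟨det_bM hℓ j, by
    rw [show (bM ℓ j).det = (ℓ : ℤ) by simp [bM, Matrix.det_fin_two]]
    exact_mod_cast hq, by
    ext i k; fin_cases i <;> fin_cases k <;>
      simp [bM, Matrix.mul_apply, Fin.sum_univ_two, mul_comm]⟩

theorem goodPair_dM {ℓ : ℕ} (hℓ : ℓ ≠ 0) (hq : ¬ q ∣ ℓ) : GoodPair q (dM ℓ) (dM ℓ) :=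
  ⟨det_dM hℓ, by
    rw [show (dM ℓ).det = (ℓ : ℤ) by simp [dM, Matrix.det_fin_two]]
    exact_mod_cast hq, by
    ext i k; fin_cases i <;> fin_cases k <;> simp [bM, dM, Matrix.mul_apply, Fin.sum_univ_two]⟩

theorem goodPair_alM {r : ℕ} (hr : r ≠ 0) (hq : ¬ q ∣ r) (s : ℤ) :
    GoodPair q (alM r s) (alM r ((q : ℤ) * s)) :=
  ⟨det_alM hr s, by
    rw [show (alM r s).det = ((r * r : ℕ) : ℤ) by simp [alM, Matrix.det_fin_two]]
    exact fun h => ((Fact.out : q.Prime).dvd_mul.mp (Int.natCast_dvd_natCast.mp h)).elim hq hq, by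
    ext i k; fin_cases i <;> fin_cases k <;>
      simp [bM, alM, Matrix.mul_apply, Fin.sum_univ_two, mul_comm]⟩

theorem goodPair_bM0 {r : ℕ} (hr : r ≠ 0) (hq : ¬ q ∣ r) : GoodPair q (bM r 0) (bM r 0) := by
  have h := goodPair_bM (q := q) hr hq 0
  rwa [mul_zero] at h

/-- `qnew_sum` on germs with a character. -/
theorem qnew_sum_lv (hqn : q.Coprime n) {ψ ψ' : ℤ → K} (h1 : ψ 1 = 1)
    (hψ : ∀ x y : ℤ, (x : ZMod (q * n)) = y → ψ x = ψ y) (h1' : ψ' 1 = 1)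
    (hψ' : ∀ x y : ℤ, (x : ZMod (q * n)) = y → ψ' x = ψ' y) {ι : Type*} [Fintype ι] (a : ι → K)
    (g g' : ι → IMat) (hg : ∀ i, GoodPair q (g i) (g' i)) {F G : Germ K} (hF : F ∈ lv (q * n) ψ)
    (hG : G ∈ lv (q * n) ψ') (e : G = ∑ i, a i • sl (K := K) (g i) F) (h : QNew q n F) :
    QNew q n G := by
  subst e
  exact qnew_sum hqn _ a g g' (fun i _ => hg i) (fixed_of_lv h1 hψ hF) (Fixed.bM_of_gamma0 h1 hψ hF)
    (fixed_of_lv h1' hψ' hG) (Fixed.bM_of_gamma0 h1' hψ' hG) h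

theorem stable_qnew (hqn : q.Coprime n) : Stable (K := K) (q * n) (QNew q n) where
  zero := qnew_zero
  add _ _ := qnew_add
  smul r _ := qnew_smul r
  opS ψ h1 hψ ℓ hℓ hℓL a F hF h := by
    have hql : ¬ q ∣ ℓ := fun hd => hℓL (((Nat.prime_dvd_prime_iff_eq Fact.out hℓ).mp hd) ▸
      dvd_mul_right q n)
    refine qnew_sum_lv hqn h1 hψ h1 hψ (ι := Option (Fin ℓ))
      (fun i => i.elim (a * ψ ℓ) fun _ => a)
      (fun i => i.elim (dM ℓ) fun j => bM ℓ ((j : ℕ) : ℤ))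
      (fun i => i.elim (dM ℓ) fun j => bM ℓ ((q : ℤ) * ((j : ℕ) : ℤ))) (fun i => ?_) hF
      (opS_mem_lv h1 hψ hℓ hℓL hF a) ?_ h
    · cases i with
      | none => exact goodPair_dM hℓ.ne_zero hql
      | some j => exact goodPair_bM hℓ.ne_zero hql _
    · simp only [Fintype.sum_option, Option.elim, opS_apply, opU_apply, smul_add, smul_smul,
        Finset.smul_sum]
      rw [add_comm, ← Fin.sum_univ_eq_sum_range (fun j : ℕ => a • sl (K := K) (bM ℓ (j : ℤ)) F) ℓ]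
  tw ψ ψ' h1 hψ h1' hψ' r hr hr2 _ w F hF h hm := by
    have hqr : ¬ q ∣ r := fun hd => by
      rw [(Nat.prime_dvd_prime_iff_eq Fact.out hr).mp hd] at hqn
      have h' : r ∣ n := Nat.dvd_of_mul_dvd_mul_left hr.pos (by
        rw [← sq]; rwa [(Nat.prime_dvd_prime_iff_eq Fact.out hr).mp hd] at hr2)
      exact hr.ne_one (Nat.eq_one_of_dvd_coprimes hqn dvd_rfl h')
    exact qnew_sum_lv hqn h1 hψ h1' hψ' w (fun u => alM r (u.val : ℤ))
      (fun u => alM r ((q : ℤ) * (u.val : ℤ))) (fun u => goodPair_alM hr.ne_zero hqr _) hF hm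
      (tw_apply w F) h
  shrink ψ h1 hψ r hr hr2 F hF h hm := by
    have hqr : ¬ q ∣ r := fun hd => by
      rw [(Nat.prime_dvd_prime_iff_eq Fact.out hr).mp hd] at hqn
      have h' : r ∣ n := Nat.dvd_of_mul_dvd_mul_left hr.pos (by
        rw [← sq]; rwa [(Nat.prime_dvd_prime_iff_eq Fact.out hr).mp hd] at hr2)
      exact hr.ne_one (Nat.eq_one_of_dvd_coprimes hqn dvd_rfl h')
    exact qnew_sum_lv hqn h1 hψ h1 hψ (ι := Unit) (fun _ => 1) (fun _ => bM r 0) (fun _ => bM r 0)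
      (fun _ => goodPair_bM0 hr.ne_zero hqr) hF hm (by simp) h

end Fermat.Agent.Auto.Qn
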