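import Fermat.Agent.Auto.Qnew.Kills
import Fermat.Agent.Auto.Twist.Semisimple

/-!
The twisted transfer of `Twist.Relation` for combinations and stable germs.
-/

set_option autoImplicit false
set_option linter.unusedSectionVars false

noncomputable section

namespace Fermat.Agent.Auto.Qn

open CongruenceSubgroup
open Fermat.Agent.GalRep (IMat GoodPrime GoodPrimeOff evFormsOff)
open Fermat.Agent.GalRep.Level (ParG IsDiamond heckeRepG)
open Fermat.Agent.DS (IsReps diaMat diaMat_mem)
open Fermat.Agent.Auto.Tw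
open scoped MatrixGroups

variable {K : Type} [Field K] [CharZero K] [IsAlgClosed K]
variable {M D : ℕ} [NeZero M] [NeZero (M * D)] {Δ : Type} [CommGroup Δ] [Finite Δ]
  {c : (ZMod M)ˣ →* Δ} {S : Set ℕ}

set_option maxHeartbeats 1000000 in
/-- A combination killing the stable germs at level `M D` kills the classes with stable germ. -/
theorem sum_lift_twOp_eq_zero (hD : D ∣ M) (hsq : Squarefree D)
    (hcD : ∀ u : (ZMod M)ˣ, ((u : ZMod M).val : ZMod D) = 1 → c u = 1)
    (hodd : Odd (Nat.card Δ)) {P : Germ K → Prop} (hP : Stable (M * D) P)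
    (hPd : ∀ (u : (ZMod M)ˣ) (w : Lat M c K), P (embLat (K := K) w) →
      P (embLat (K := K) (latDia M c K u w)))
    {κ : Type} [Fintype κ] (W : κ → FreeAlgebra ℤ (GoodPrimeOff (M * D) S)) (e : κ → K)
    (hbase : ∀ F ∈ lv (M * D) (fun _ => (1 : K)), P F →
      evc ellOf W e (fun _ => (1 : K)) (fun _ => (1 : K)) F = 0)
    (v : Lat M c K) (hv : P (embLat (K := K) v)) :
    ∑ j, e j • FreeAlgebra.lift ℤ (twOp (K := K) (c := c)) (W j) v = 0 := by
  classical
  haveI : Fintype ((ZMod M)ˣ →* Kˣ) := Fintype.ofFinite _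
  rw [← sum_comp (c := c) v]
  simp only [map_sum, Finset.smul_sum]
  rw [Finset.sum_comm]
  refine Finset.sum_eq_zero fun φ _ => ?_
  set w := comp (c := c) φ v with hw_def
  by_cases hw : w = 0
  · exact Finset.sum_eq_zero fun j _ => by rw [hw, map_zero, smul_zero]
  have hPw : P (embLat (K := K) w) := by
    have hs : ∀ (s : Finset (ZMod M)ˣ) (a : (ZMod M)ˣ → K),
        P (embLat (K := K) (∑ u ∈ s, a u • latDia M c K u v)) := fun s a => by
      induction s using Finset.induction_on with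
      | empty => simp [hP.zero]
      | insert x t hx ih =>
        rw [Finset.sum_insert hx, map_add, map_smul]
        exact hP.add _ _ (hP.smul _ _ (hPd _ _ hv)) ih
    rw [hw_def, comp, LinearMap.smul_apply, LinearMap.sum_apply, map_smul]
    exact hP.smul _ _ (hs _ fun u => ((φ u)⁻¹ : Kˣ).val)
  have hφc : ∀ u, c u = 1 → φ u = 1 := fun u hu => by
    have h := latDia_comp φ u v
    rw [latDia_eq_one' hu, Module.End.one_apply, ← hw_def] at h
    have h2 : ((φ u : K) - 1) • w = 0 := (_root_.sub_smul (φ u : K) 1 w).trans (by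
      rw [one_smul, ← h, sub_self])
    exact Units.ext (sub_eq_zero.mp ((smul_eq_zero.mp h2).resolve_right hw))
  have hφn : ∀ u, φ u ^ Nat.card Δ = 1 := fun u => by
    rw [← map_pow]; exact hφc _ (by rw [map_pow, pow_card_eq_one'])
  set h := (Nat.card Δ - 1) / 2 with hh_def
  have hh : Nat.card Δ = 2 * h + 1 := by obtain ⟨t, ht⟩ := hodd; omega
  obtain ⟨η, hη⟩ := exists_mulChar (K := K) hD (φ ^ h) (fun u hu => by
    rw [MonoidHom.pow_apply, hφc u (hcD u hu), one_pow])
  have hηn : η ^ Nat.card Δ = 1 := MulChar.ext fun u => by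
    obtain ⟨u', rfl⟩ := ZMod.unitsMap_surjective hD u
    rw [MulChar.pow_apply_coe, MulChar.one_apply_coe, ZMod.unitsMap_def, Units.coe_map]
    show η ((ZMod.cast (u' : ZMod M) : ZMod D)) ^ Nat.card Δ = 1
    rw [ZMod.cast_eq_val, hη, ← Units.val_pow_eq_pow_val, MonoidHom.pow_apply, ← pow_mul,
      mul_comm, pow_mul, hφn, one_pow, Units.val_one]
  have hval : ∀ (x : ℤ) (d : (ZMod M)ˣ), (x : ZMod M) = d →
      η (x : ZMod D) = (φ d : K) ^ h ∧ psiOf η x = (φ d : K) := fun x d hx => by
    have e : (x : ZMod D) = ((d : ZMod M).val : ZMod D) := by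
      rw [← hx, ← ZMod.cast_eq_val, ZMod.cast_intCast hD]
    have e1 : η (x : ZMod D) = (φ d : K) ^ h := by rw [e, hη]; simp
    refine ⟨e1, ?_⟩
    rw [psiOf, e1, inv_eq_of_mul_eq_one_right]
    rw [← pow_mul, ← pow_succ, mul_comm h 2, ← hh, ← Units.val_pow_eq_pow_val, hφn, Units.val_one]
  have hML : M ∣ M * D := dvd_mul_right M D
  have hlv : embLat (K := K) w ∈ lv (M * D) (psiOf η) := by
    refine ⟨embLat_mem_parGerm w, fun δ hδ => ?_⟩
    have hδM : δ ∈ Gamma0 M := Newform.mem_Gamma0_iff_dvd.mpr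
      ((Int.natCast_dvd_natCast.mpr hML).trans (Newform.mem_Gamma0_iff_dvd.mp hδ))
    rw [sl_embLat hδM (elevenUnit hδM) (coe_elevenUnit hδM).symm, hw_def, latDia_comp, map_smul,
      (hval _ _ (coe_elevenUnit hδM).symm).2]
  have hint := fun j => (intertwine
    (fun i : GoodPrimeOff (M * D) S => (twOp (K := K) (c := c) i).toAddMonoidHom.toIntLinearMap)
    (opZ ellOf (wA ellOf η) (wB ellOf η)) (embLat (K := K) (M := M) (c := c)).toAddMonoidHom
    (fun x => ∀ d, latDia M c K d x = (φ d : K) • x)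
    (fun i x hx d => by
      show latDia M c K d (twOp i x) = (φ d : K) • twOp i x
      rw [← Module.End.mul_apply, ← (twT_latDia (downPrime hML i.1) d).eq, Module.End.mul_apply, hx,
        map_smul])
    (fun x y hx hy d => by rw [map_add, hx, hy, smul_add])
    (fun n x hx d => by rw [map_zsmul, hx, smul_comm])
    (fun i x hx => by
      let ℓ := downPrime hML i.1
      have hℓ : (ℓ : ℕ).Prime := ℓ.1.2
      have hcop := hℓ.coprime_iff_not_dvd.2 ℓ.2
      have hv := hval ((ℓ : ℕ) : ℤ) (primeUnit ℓ) (by rw [ZMod.coe_unitOfCoprime, Int.cast_natCast])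
      have hper : Periodic (embLat (K := K) x) := fun n => by
        have hn : ModularGroup.T ^ n ∈ Gamma0 M := by
          rw [Gamma0_mem, ModularGroup.coe_T_zpow]; simp
        have h2 := sl_embLat (c := c) hn 1 (by rw [ModularGroup.coe_T_zpow]; simp) x
        rw [ModularGroup.coe_T_zpow] at h2
        rw [latDia_eq_one' (map_one c)] at h2
        exact h2
      have hR := DS.isDiamond_diaMat_prime (M := M) hcop
      show embLat (K := K) (latT M c K ℓ (latDia M c K (primeUnit ℓ ^ h) x)) =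
        opS (wA ellOf η i) (wB ellOf η i) (ℓ : ℕ) (embLat (K := K) x)
      rw [hx, map_smul, map_smul, map_pow, Units.val_pow_eq_pow_val, latT, embLat_transferEnd,
        sum_heckeRepG_eq hℓ.ne_zero
          ((ZMod.isUnit_iff_coprime M (ℓ : ℕ)).2 hcop.symm) hper (b := (φ (primeUnit ℓ) : K))]
      · show _ = opS (η (((ℓ : ℕ) : ℤ) : ZMod D)) (psiOf η (((ℓ : ℕ) : ℤ))) (ℓ : ℕ) _
        rw [hv.1, hv.2]
      · rw [sl_embLat (c := c) (diaMat_mem _) (primeUnit ℓ) (DS.diaMat_eleven _), hx, map_smul])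
    (W j) w (fun d => latDia_comp φ d v)).2
  have hkill : evc ellOf W e (wA ellOf η) (wB ellOf η) (embLat (K := K) w) = 0 :=
    killsC_all (L := M * D) (fun i => i.1.1.2) (fun i => i.1.2) hP hsq (fun q hq hqD => by
      obtain ⟨a, ha⟩ := hqD.trans hD
      obtain ⟨b, hb⟩ := hqD
      refine ⟨⟨a * b, by rw [ha, hb]; ring⟩, ⟨a, ?_⟩⟩
      rw [ha, show q * a * D = q * (D * a) by ring, Nat.mul_div_cancel_left _ hq.pos])
      hbase D dvd_rfl η (Nat.card Δ) hodd hηn _ hlv hPw
  apply embLat_injective (K := K)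
  rw [map_zero, ← hkill, evc, map_sum]
  refine Finset.sum_congr rfl fun j _ => ?_
  rw [map_smul, ← lift_intLinearMap]
  exact congrArg _ (hint j)

end Fermat.Agent.Auto.Qn
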