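import Fermat.Agent.Auto.Qnew.Geom
import Fermat.Agent.Auto.Qnew.Stable
import Fermat.Agent.Auto.Qnew.TwistKill

/-!
From level `Γ₀(q m D)` to the twisted operators at level `q m`: the trace identities hold on classes
with vanishing translate sums.
-/

set_option autoImplicit false
set_option linter.unusedSectionVars false
set_option linter.style.haveILetI false

noncomputable section

namespace Fermat.Agent.Auto.Qn

open CongruenceSubgroup IsLocalRing
open Fermat.Agent.Galois (GQ)
open Fermat.Agent.GalRep (IMat GoodPrime GoodPrimeOff cyc frobeniusPowDensity frobPoly)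
open Fermat.Agent.DS (diaMat diaMat_mem diaMat_eleven)
open Fermat.Agent.Auto.Tw (Germ sl sl_mul embLat embLat_apply embLat_injective embLat_transferEnd
  sl_embLat sl_emb_self mapLat mapLat_injective mapLat_twT mapLat_smul coe_mapLat_apply lv opS ev
  ellOf opZ opZ_apply intertwine lift_intLinearMap twOp sum_heckeRepG_eq exists_descend
  emb_apply_congr)
open scoped MatrixGroups

/-! ### Polynomials with coefficients -/

theorem exists_int_decomp {O ι : Type} [CommRing O] (W : FreeAlgebra O ι) :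
    ∃ (κ : Type) (_ : Fintype κ) (o : κ → O) (W' : κ → FreeAlgebra ℤ ι),
      ∀ (A : Type) [Ring A] [Algebra O A] (f : ι → A),
        FreeAlgebra.lift O f W = ∑ j, o j • FreeAlgebra.lift ℤ f (W' j) := by
  induction W using FreeAlgebra.induction with
  | grade0 r => exact ⟨Unit, inferInstance, fun _ => r, fun _ => 1, fun A _ _ f => by
      simp [Algebra.algebraMap_eq_smul_one]⟩
  | grade1 i => exact ⟨Unit, inferInstance, fun _ => 1, fun _ => FreeAlgebra.ι ℤ i, fun A _ _ f => by
      simp [FreeAlgebra.lift_ι_apply]⟩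
  | mul a b ha hb =>
    obtain ⟨κ, _, o, W₁, h1⟩ := ha
    obtain ⟨κ', _, o', W₂, h2⟩ := hb
    refine ⟨κ × κ', inferInstance, fun x => o x.1 * o' x.2, fun x => W₁ x.1 * W₂ x.2, fun A _ _ f => ?_⟩
    rw [map_mul, h1, h2, Finset.sum_mul, Fintype.sum_prod_type]
    refine Finset.sum_congr rfl fun i _ => ?_
    rw [Finset.mul_sum]
    exact Finset.sum_congr rfl fun j _ => by rw [map_mul, smul_mul_smul_comm]
  | add a b ha hb =>
    obtain ⟨κ, _, o, W₁, h1⟩ := ha
    obtain ⟨κ', _, o', W₂, h2⟩ := hb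
    refine ⟨κ ⊕ κ', inferInstance, Sum.elim o o', Sum.elim W₁ W₂, fun A _ _ f => ?_⟩
    rw [map_add, h1, h2, Fintype.sum_sum_type]
    rfl

theorem exists_lift_of_mem {O ι A : Type} [CommRing O] [Ring A] [Algebra O A] (f : ι → A) {x : A}
    (hx : x ∈ Algebra.adjoin O (Set.range f)) : ∃ W, FreeAlgebra.lift O f W = x := by
  induction hx using Algebra.adjoin_induction with
  | mem x hx => obtain ⟨i, rfl⟩ := hx; exact ⟨FreeAlgebra.ι O i, FreeAlgebra.lift_ι_apply f i⟩
  | algebraMap r => exact ⟨algebraMap O _ r, AlgHom.commutes _ r⟩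
  | add a b _ _ ha hb =>
    obtain ⟨a, rfl⟩ := ha; obtain ⟨b, rfl⟩ := hb; exact ⟨a + b, map_add _ a b⟩
  | mul a b _ _ ha hb =>
    obtain ⟨a, rfl⟩ := ha; obtain ⟨b, rfl⟩ := hb; exact ⟨a * b, map_mul _ a b⟩

theorem lift_prodMap {O ι U V : Type} [CommRing O] [AddCommGroup U] [Module O U] [AddCommGroup V]
    [Module O V] (f : ι → Module.End O U) (g : ι → Module.End O V) (W : FreeAlgebra O ι) :
    FreeAlgebra.lift O (fun i => (f i).prodMap (g i)) W =
      (FreeAlgebra.lift O f W).prodMap (FreeAlgebra.lift O g W) := by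
  induction W using FreeAlgebra.induction with
  | grade0 r => exact LinearMap.ext fun x => by simp; rfl
  | grade1 i => simp [FreeAlgebra.lift_ι_apply]
  | mul a b ha hb =>
    rw [map_mul, map_mul, map_mul, ha, hb]
    exact LinearMap.ext fun x => rfl
  | add a b ha hb =>
    rw [map_add, map_add, map_add, ha, hb]
    exact LinearMap.ext fun x => rfl

theorem prodMap_inj {O U V : Type} [CommRing O] [AddCommGroup U] [Module O U] [AddCommGroup V]
    [Module O V] {a a' : Module.End O U} {b b' : Module.End O V} (h : a.prodMap b = a'.prodMap b') :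
    a = a' ∧ b = b' :=
  ⟨LinearMap.ext fun x => congrArg Prod.fst (LinearMap.congr_fun h (x, 0)),
    LinearMap.ext fun x => congrArg Prod.snd (LinearMap.congr_fun h (0, x))⟩

theorem lift_frobPoly {O ι A : Type} [CommRing O] [Ring A] [Algebra O A] (f : ι → A) (i : ι) (l : ℕ) :
    ∀ n, FreeAlgebra.lift O f (frobPoly (FreeAlgebra.ι O i) (l : FreeAlgebra O ι) n) =
      frobPoly (f i) (l : A) n
  | 0 => by rw [frobPoly, frobPoly, map_ofNat]
  | 1 => by rw [frobPoly, frobPoly, FreeAlgebra.lift_ι_apply]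
  | n + 2 => by
    rw [frobPoly, frobPoly, map_sub, map_mul, map_mul, map_natCast, FreeAlgebra.lift_ι_apply,
      lift_frobPoly f i l (n + 1), lift_frobPoly f i l n]

set_option maxHeartbeats 600000 in
/-- Two traces given by a common polynomial on a dense set are given by one everywhere. -/
theorem exists_poly_trace {O : Type} [CommRing O] [IsLocalRing O] [IsNoetherianRing O] {U V ι : Type}
    [AddCommGroup U] [Module O U] [Module.Finite O U] [Module.Free O U] [AddCommGroup V] [Module O V]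
    [Module.Finite O V] [Module.Free O V] (G₁ : GQ →* Module.End O U) (G₂ : GQ →* Module.End O V)
    (χ : GQ →* O) (f₁ : ι → Module.End O U) (f₂ : ι → Module.End O V)
    (hcont : ∀ k : ℕ, ∃ F : IntermediateField ℚ (AlgebraicClosure ℚ), FiniteDimensional ℚ F ∧
      ∀ e : GQ, (∀ x ∈ F, e x = x) →
        (∀ v, G₁ e v - v ∈ maximalIdeal O ^ k • (⊤ : Submodule O U)) ∧
        (∀ v, G₂ e v - v ∈ maximalIdeal O ^ k • (⊤ : Submodule O V)) ∧ χ e - 1 ∈ maximalIdeal O ^ k)
    (hdense : ∀ (F : IntermediateField ℚ (AlgebraicClosure ℚ)) [FiniteDimensional ℚ F] (g : GQ),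
      ∃ g' : GQ, (∀ x ∈ F, g' x = g x) ∧ ∃ W : FreeAlgebra O ι,
        FreeAlgebra.lift O f₁ W = G₁ g' + χ g' • G₁ g'⁻¹ ∧
        FreeAlgebra.lift O f₂ W = G₂ g' + χ g' • G₂ g'⁻¹) (g : GQ) :
    ∃ W : FreeAlgebra O ι, FreeAlgebra.lift O f₁ W = G₁ g + χ g • G₁ g⁻¹ ∧
      FreeAlgebra.lift O f₂ W = G₂ g + χ g • G₂ g⁻¹ := by
  let G : GQ →* Module.End O (U × V) :=
    { toFun := fun g => (G₁ g).prodMap (G₂ g)
      map_one' := by rw [map_one, map_one]; exact LinearMap.ext fun x => rfl
      map_mul' := fun a b => by rw [map_mul, map_mul]; exact LinearMap.ext fun x => rfl }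
  let f : ι → Module.End O (U × V) := fun i => (f₁ i).prodMap (f₂ i)
  have hsum : ∀ g, G g + χ g • G g⁻¹ =
      (G₁ g + χ g • G₁ g⁻¹).prodMap (G₂ g + χ g • G₂ g⁻¹) := fun g => LinearMap.ext fun x => rfl
  have key := trace_mem (R := O) (L := U × V) G χ (Algebra.adjoin O (Set.range f)) (fun k => ?_)
    (fun F _ g => ?_) g
  · obtain ⟨W, hW⟩ := exists_lift_of_mem f key
    rw [hsum, lift_prodMap] at hW
    exact ⟨W, prodMap_inj hW⟩
  · obtain ⟨F, hF, h⟩ := hcont k
    refine ⟨F, hF, fun e he => ⟨fun ⟨x, y⟩ => ?_, (h e he).2.2⟩⟩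
    have h1 := Submodule.mem_map_of_mem (f := LinearMap.inl O U V) ((h e he).1 x)
    have h2 := Submodule.mem_map_of_mem (f := LinearMap.inr O U V) ((h e he).2.1 y)
    rw [Submodule.map_smul''] at h1 h2
    have := add_mem ((Submodule.smul_mono le_rfl le_top) h1) ((Submodule.smul_mono le_rfl le_top) h2)
    rwa [show LinearMap.inl O U V (G₁ e x - x) + LinearMap.inr O U V (G₂ e y - y) =
      G e (x, y) - (x, y) by simp [G]] at this
  · obtain ⟨g', hg', W, e1, e2⟩ := hdense F g
    refine ⟨g', hg', ?_⟩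
    rw [hsum, ← e1, ← e2, ← lift_prodMap]
    clear e1 e2
    induction W using FreeAlgebra.induction with
    | grade0 r => rw [AlgHom.commutes]; exact Subalgebra.algebraMap_mem _ r
    | grade1 i => rw [FreeAlgebra.lift_ι_apply]; exact Algebra.subset_adjoin ⟨i, rfl⟩
    | mul a b ha hb => rw [map_mul]; exact mul_mem ha hb
    | add a b ha hb => rw [map_add]; exact add_mem ha hb

/-! ### The traces as polynomials in the twisted operators of both levels -/

section Pair

variable {p : ℕ} [Fact p.Prime] {O : Type} [CommRing O] [IsDomain O] [IsDiscreteValuationRing O]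
  [Algebra ℤ_[p] O] [Module.Finite ℤ_[p] O] [CharZero O]
  {M D : ℕ} [NeZero M] [NeZero (M * D)] {Δ : Type} [CommGroup Δ] [Finite Δ] {c : (ZMod M)ˣ →* Δ}

local notation "ι₀" => GoodPrimeOff (M * D) (∅ : Set ℕ)

/-- The twisted operators at the two levels. -/
abbrev opLow (i : GoodPrimeOff (M * D) (∅ : Set ℕ)) :
    Module.End O (Lat (M * D) (1 : (ZMod (M * D))ˣ →* Unit) O) :=
  twT (M * D) 1 O i.1

variable (c) in
/-- The twisted operators at level `M`. -/
abbrev opTop (i : GoodPrimeOff (M * D) (∅ : Set ℕ)) : Module.End O (Lat M c O) :=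
  twT M c O (downPrime (dvd_mul_right M D) i.1)

theorem twTr_cont {N : ℕ} [NeZero N] {Δ' : Type} [CommGroup Δ'] (d : (ZMod N)ˣ →* Δ') (k : ℕ) :
    ∃ F : IntermediateField ℚ (AlgebraicClosure ℚ), FiniteDimensional ℚ F ∧
      ∀ e : GQ, (∀ x ∈ F, e x = x) → ∀ v, galTw N d p O e v - v ∈
        maximalIdeal O ^ k • (⊤ : Submodule O (Lat N d O)) := by
  obtain ⟨F, hF, h1⟩ := galLat_continuous (M := N) (c := d) (p := p) (O := O) k
  obtain ⟨z, hz⟩ := HasEnoughRootsOfUnity.exists_primitiveRoot (AlgebraicClosure ℚ) N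
  haveI : FiniteDimensional ℚ (IntermediateField.adjoin ℚ ({z} : Set (AlgebraicClosure ℚ))) :=
    IntermediateField.adjoin.finiteDimensional (Algebra.IsIntegral.isIntegral (R := ℚ) z)
  haveI := hF
  refine ⟨F ⊔ IntermediateField.adjoin ℚ ({z} : Set (AlgebraicClosure ℚ)), inferInstance,
    fun e he v => ?_⟩
  have hcyc : GalRep.Level.cycM N e = 1 := GalRep.Level.cycM_eq_of_root e hz (by
    rw [he z ((le_sup_right : _ ≤ F ⊔ IntermediateField.adjoin ℚ
      ({z} : Set (AlgebraicClosure ℚ))) (IntermediateField.mem_adjoin_simple_self ℚ z))]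
    rcases eq_or_ne N 1 with rfl | hN
    · simp [IsPrimitiveRoot.one_right_iff.mp hz]
    · haveI : Fact (1 < N) := ⟨by have := NeZero.ne N; omega⟩
      rw [Units.val_one, ZMod.val_one, pow_one])
  have : galTw N d p O e = galLat N d p O e := by
    show galLat N d p O e * _ = _
    rw [hcyc, one_pow, latDia_one, mul_one]
  rw [this]
  exact h1 e (fun x hx => he x ((le_sup_left : F ≤ _) hx)) v

/-- The traces are given by the same polynomials at both levels. -/
theorem exists_poly_twTr (hodd : Odd (Nat.card Δ)) (g : GQ) : ∃ W : FreeAlgebra O ι₀,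
    FreeAlgebra.lift O (opLow (M := M) (D := D) (O := O)) W = twTr (M * D) 1 p O g ∧
      FreeAlgebra.lift O (opTop c (D := D) (O := O)) W = twTr M c p O g := by
  have h := exists_poly_trace (galTw (M * D) (1 : (ZMod (M * D))ˣ →* Unit) p O) (galTw M c p O)
    (chiO p O) (opLow (M := M) (D := D) (O := O)) (opTop c (D := D) (O := O)) ?_ ?_ g
  · obtain ⟨W, h1, h2⟩ := h
    exact ⟨W, h1.trans (congrArg (_ + ·) (Algebra.smul_def _ _)),
      h2.trans (congrArg (_ + ·) (Algebra.smul_def _ _))⟩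
  · intro k
    obtain ⟨F₁, hF₁, h1⟩ := twTr_cont (p := p) (O := O) (1 : (ZMod (M * D))ˣ →* Unit) k
    obtain ⟨F₂, hF₂, h2⟩ := twTr_cont (p := p) (O := O) c k
    obtain ⟨F₃, hF₃, h3⟩ := GalRep.exists_cyc_level p k
    haveI := hF₁
    haveI := hF₂
    haveI := hF₃
    refine ⟨F₁ ⊔ F₂ ⊔ F₃, inferInstance, fun e he =>
      ⟨h1 e (fun z hz => he z ((le_sup_left.trans le_sup_left : F₁ ≤ _) hz)),
        h2 e (fun z hz => he z ((le_sup_right.trans le_sup_left : F₂ ≤ _) hz)), ?_⟩⟩
    obtain ⟨cc, hcc⟩ := h3 e fun x hx => he x ((le_sup_right : F₃ ≤ _) hx)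
    show algebraMap ℤ_[p] O (cyc p e).val - 1 ∈ _
    rw [← map_one (algebraMap ℤ_[p] O), ← map_sub, hcc, map_mul, map_pow, map_natCast]
    exact Ideal.mul_mem_right _ _ (Ideal.pow_mem_pow (natCast_p_mem p O) k)
  · intro F _ g
    obtain ⟨ℓ, hℓ, hbad, A, hA, σ, hσ, b, hb⟩ :=
      frobeniusPowDensity F ({p} ∪ (M * D).primeFactors) g
    simp only [Finset.mem_union, Finset.mem_singleton, not_or] at hbad
    have hℓM : ¬ ℓ ∣ M * D := fun h => hbad.2 (Nat.mem_primeFactors.mpr ⟨hℓ, h, NeZero.ne (M * D)⟩)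
    let i : ι₀ := ⟨⟨⟨ℓ, hℓ⟩, hℓM⟩, Set.notMem_empty _⟩
    have h₁ := twTr_frobenius_pow (M := M * D) (c := (1 : (ZMod (M * D))ˣ →* Unit)) (p := p) (O := O)
      odd_card_unit i.1 hbad.1 A hA hσ b
    have h₂ := twTr_frobenius_pow (M := M) (c := c) (p := p) (O := O) hodd
      (downPrime (dvd_mul_right M D) i.1) hbad.1 A hA hσ b
    refine ⟨σ ^ b, hb, frobPoly (FreeAlgebra.ι O i) (ℓ : FreeAlgebra O ι₀) b, ?_, ?_⟩
    · refine (lift_frobPoly (opLow (M := M) (D := D) (O := O)) i ℓ b).trans (h₁.symm.trans ?_)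
      exact congrArg (_ + ·) (Algebra.smul_def _ _).symm
    · refine (lift_frobPoly (opTop c (D := D) (O := O)) i ℓ b).trans (h₂.symm.trans ?_)
      exact congrArg (_ + ·) (Algebra.smul_def _ _).symm

end Pair

/-! ### From the classes of level `Γ₀(L)` to germs -/

section Kernel

variable {O : Type} [CommRing O] [IsDomain O] [IsDiscreteValuationRing O] [CharZero O]
  {q n : ℕ} [NeZero q] [NeZero n] [NeZero (q * n)] [Fact q.Prime]

/-- A class with coefficients in the field and vanishing translate sums is a combination of such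
classes with coefficients in `O`. -/
theorem exists_decomp_qnew (hqn : q.Coprime n)
    (w : Lat (q * n) (1 : (ZMod (q * n))ˣ →* Unit) (coeffField O))
    (hw : QNew q n (embLat (K := coeffField O) w)) :
    ∃ (ι : Type) (_ : Fintype ι) (φ : ι → Lat (q * n) (1 : (ZMod (q * n))ˣ →* Unit) O)
      (e : ι → coeffField O), w = ∑ i, e i • mapLat (coeffMap O) (φ i) ∧
        ∀ i, QNew q n (embLat (K := coeffField O) (mapLat (coeffMap O) (φ i))) := by
  classical
  have hsm : ∀ (r : O) (x : coeffField O), r • x = coeffMap O r * x := fun r x => by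
    rw [Algebra.smul_def, IsScalarTower.algebraMap_apply O (FractionRing O) (coeffField O)]; rfl
  obtain ⟨s, hs⟩ := exists_generators_grp (M := q * n) (c := (1 : (ZMod (q * n))ˣ →* Unit))
  let f : Additive (grp (q * n) (1 : (ZMod (q * n))ˣ →* Unit)) →+ coeffField O := w
  let W : Submodule O (coeffField O) := Submodule.span O
    ((fun g => f (Additive.ofMul g)) '' (s : Set (grp (q * n) (1 : (ZMod (q * n))ˣ →* Unit))))
  have hW : ∀ x, f x ∈ W := by
    intro x
    obtain ⟨γ, rfl⟩ := Additive.ofMul.surjective x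
    have hγ : γ ∈ Subgroup.closure (s : Set (grp (q * n) (1 : (ZMod (q * n))ˣ →* Unit))) :=
      hs ▸ Subgroup.mem_top γ
    induction hγ using Subgroup.closure_induction with
    | mem g hg => exact Submodule.subset_span ⟨g, hg, rfl⟩
    | one => rw [ofMul_one, map_zero]; exact W.zero_mem
    | mul a b _ _ ha hb => rw [ofMul_mul, map_add]; exact W.add_mem ha hb
    | inv a _ ha => rw [ofMul_inv, map_neg]; exact W.neg_mem ha
  haveI : Module.Finite O W := Module.Finite.span_of_finite O ((s.finite_toSet).image _)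
  haveI : Module.IsTorsionFree O (coeffField O) :=
    Module.isTorsionFree_iff_algebraMap_injective.mpr fun x y h => coeffMap_injective O (by
      simpa only [Algebra.algebraMap_eq_smul_one, hsm, mul_one] using h)
  haveI : Module.Free O W := Module.free_of_finite_type_torsion_free'
  let b := Module.Free.chooseBasis O W
  let χ : Additive (grp (q * n) (1 : (ZMod (q * n))ˣ →* Unit)) →+ W :=
    AddMonoidHom.mk' (fun x => ⟨f x, hW x⟩) fun x y => Subtype.ext (map_add f x y)
  let φ : Module.Free.ChooseBasisIndex O W → Lat (q * n) (1 : (ZMod (q * n))ˣ →* Unit) O := fun i =>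
    ⟨(b.coord i).toAddMonoidHom.comp χ, fun γ hγ => by
      show b.coord i (χ (Additive.ofMul γ)) = 0
      rw [show χ (Additive.ofMul γ) = 0 from Subtype.ext (w.2 γ hγ), map_zero]⟩
  have heq : w = ∑ i, ((b i : W) : coeffField O) • mapLat (coeffMap O) (φ i) := by
    refine Subtype.ext (AddMonoidHom.ext fun x => ?_)
    have hφ : ∀ i, (φ i : Additive (grp (q * n) (1 : (ZMod (q * n))ˣ →* Unit)) →+ O) x =
        b.repr (χ x) i := fun i => rfl
    have hχ : (χ x : coeffField O) = f x := rfl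
    rw [AddSubmonoidClass.coe_finsetSum, AddMonoidHom.finsetSum_apply]
    simp only [Submodule.coe_smul, AddMonoidHom.smul_apply, coe_mapLat_apply, hφ]
    have h := congrArg Subtype.val (b.sum_repr (χ x))
    rw [AddSubmonoidClass.coe_finsetSum, hχ] at h
    clear_value b χ φ
    refine h.symm.trans (Finset.sum_congr rfl fun i _ => ?_)
    rw [Submodule.coe_smul, hsm, smul_eq_mul, mul_comm]
  have hc : ∀ u, (1 : (ZMod n)ˣ →* Unit) (ZMod.unitsMap (dvd_mul_left n q) u) =
      (1 : (ZMod (q * n))ˣ →* Unit) u := fun _ => rfl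
  have hzero : ∀ {A : IMat} (hA : Carrier A (1 : (ZMod (q * n))ˣ →* Unit) (1 : (ZMod n)ˣ →* Unit)),
      hA.traceMap w = 0 → ∀ i, hA.traceMap (φ i) = 0 := by
    intro A hA h0 i
    rw [heq, map_sum] at h0
    refine lat_ext_apply fun γ => ?_
    have h1 := DFunLike.congr_fun (congrArg Subtype.val h0) (Additive.ofMul γ)
    rw [AddSubmonoidClass.coe_finsetSum, AddMonoidHom.finsetSum_apply] at h1
    simp only [map_smul, ← hA.mapLat_traceMap, Submodule.coe_smul, AddMonoidHom.smul_apply,
      coe_mapLat_apply, smul_eq_mul] at h1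
    set a : Module.Free.ChooseBasisIndex O W → O := fun i =>
      (hA.traceMap (φ i) : Additive (grp n (1 : (ZMod n)ˣ →* Unit)) →+ O) (Additive.ofMul γ)
    have h2 : ∑ i, a i • b i = 0 := Subtype.ext (by
      rw [AddSubmonoidClass.coe_finsetSum, ZeroMemClass.coe_zero]
      refine Eq.trans (Finset.sum_congr rfl fun i _ => ?_) h1
      rw [Submodule.coe_smul, hsm, mul_comm])
    exact Fintype.linearIndependent_iff.mp b.linearIndependent a h2 i
  have h1 : (carrier_one hqn hc).traceMap w = 0 := embLat_injective (K := coeffField O) (by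
    rw [Carrier.embLat_traceMap, Tw.sl_one, hw.1, map_zero])
  have h2 : (carrier_bM hqn hc).traceMap w = 0 := embLat_injective (K := coeffField O) (by
    rw [Carrier.embLat_traceMap, hw.2, map_zero])
  exact ⟨_, inferInstance, φ, _, heq, fun i =>
    qnew_of_traces hqn hc (φ i) (hzero _ h1 i) (hzero _ h2 i)⟩

set_option maxHeartbeats 1000000 in
/-- The identities at level `Γ₀(L)`, for `L` equal to `q n`. -/
theorem exists_idents_of_eq {p : ℕ} [Fact p.Prime] [Algebra ℤ_[p] O] [Module.Finite ℤ_[p] O]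
    {L : ℕ} [NeZero L] (hL : L = q * n) (hqn : q.Coprime n) (hqp : q ≠ p)
    {A : ValuationSubring (AlgebraicClosure ℚ)} (hA : A.LiesOverPrime q) {σ : GQ}
    (hσ : A.IsFrobeniusAt σ q) :
    ∃ k : ℕ, 0 < k ∧ ∀ v : Lat L (1 : (ZMod L)ˣ →* Unit) O,
      QNew q n (embLat (K := coeffField O) (mapLat (coeffMap O) v)) →
      (∀ a b : GQ, idMul (twTr L 1 p O) q σ k a b v = 0) ∧
      ∀ a : GQ, idTrace (twTr L 1 p O) q σ k (algebraMap O _ (chiO p O a)) a v = 0 := by
  subst hL
  have hndvd : ¬ q ∣ n := (Fact.out : q.Prime).coprime_iff_not_dvd.mp hqn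
  obtain ⟨g, hg⟩ : ∃ g : SL(2, ℤ), g 1 0 = n ∧ g 1 1 = q := by
    obtain ⟨u, v, huv⟩ := hqn.isCoprime
    exact ⟨⟨!![u, -v; (n : ℤ), (q : ℤ)], by
      rw [Matrix.det_fin_two_of]; linear_combination huv⟩, by simp, by simp⟩
  obtain ⟨k, hk, h⟩ := exists_idents (p := p) (O := O) hg hndvd hqp hA hσ
  exact ⟨k, hk, fun v hv => h v (cores_of_qnew hg hndvd v hv)⟩

/-- Classes of level `Γ₀(L)` with vanishing sums give all invariant germs with vanishing sums. -/
theorem exists_lat_of_germ {L : ℕ} [NeZero L] (hL : L = q * n) (hqn : q.Coprime n)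
    {F : Germ (coeffField O)} (hF : F ∈ lv L (fun _ => (1 : coeffField O))) (hq : QNew q n F) :
    ∃ (ι : Type) (_ : Fintype ι) (φ : ι → Lat L (1 : (ZMod L)ˣ →* Unit) O) (e : ι → coeffField O),
      F = ∑ i, e i • embLat (K := coeffField O) (mapLat (coeffMap O) (φ i)) ∧
        ∀ i, QNew q n (embLat (K := coeffField O) (mapLat (coeffMap O) (φ i))) := by
  subst hL
  obtain ⟨χ, hχ⟩ := exists_descend (q * n) hF.1 fun δ hδ => by rw [hF.2 δ hδ, one_smul]
  let w : Lat (q * n) (1 : (ZMod (q * n))ˣ →* Unit) (coeffField O) :=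
    ⟨(χ : Additive (Gamma0 (q * n)) →+ coeffField O).comp
      (Subgroup.inclusion grp_le_gamma0).toAdditive, fun _ h => χ.2 _ h⟩
  have hw : embLat (K := coeffField O) w = F := by
    rw [← hχ, embLat_apply]
    exact emb_apply_congr (NeZero.ne (q * n)) gamma_le_grp (GalRep.Gamma_le_Gamma0 _) fun γ hγ => rfl
  obtain ⟨ι, _, φ, e, he, hQ⟩ := exists_decomp_qnew hqn w (by rwa [hw])
  refine ⟨ι, inferInstance, φ, e, ?_, hQ⟩
  rw [← hw, he, map_sum]
  simp only [map_smul]

end Kernel

section Transfer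

variable {O : Type} [CommRing O] [IsDomain O] [IsDiscreteValuationRing O] [CharZero O]
  {q m D : ℕ} [NeZero q] [NeZero m] [NeZero (q * m)] [NeZero (q * m * D)] [NeZero (m * D)]
  [Fact q.Prime] {Δ : Type} [CommGroup Δ] [Finite Δ] {c : (ZMod (q * m))ˣ →* Δ}
  {c' : (ZMod m)ˣ →* Δ}

theorem ev_smul {K : Type} [Field K] [CharZero K] {ι : Type} (ell : ι → ℕ) (a b : ι → K)
    (W : FreeAlgebra ℤ ι) (r : K) (F : Germ K) : ev ell a b W (r • F) = r • ev ell a b W F :=
  ((intertwine (opZ ell a b) (opZ ell a b) (DistribMulAction.toAddMonoidHom (Germ K) r) (fun _ => True)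
    (fun _ _ _ => trivial) (fun _ _ _ _ => trivial) (fun _ _ _ => trivial)
    (fun i F _ => ((opS (a i) (b i) (ell i)).map_smul r F).symm) W F trivial).2).symm

theorem embLat_twT_one {L : ℕ} [NeZero L] {K : Type} [Field K] [CharZero K] {S : Set ℕ}
    (i : GoodPrimeOff L S) (v : Lat L (1 : (ZMod L)ˣ →* Unit) K) :
    embLat (K := K) (twT L 1 K i.1 v) = opS (1 : K) 1 (ellOf i) (embLat (K := K) v) := by
  have e : latDia L (1 : (ZMod L)ˣ →* Unit) K
      (ZMod.unitOfCoprime _ (i.1.1.2.coprime_iff_not_dvd.2 i.1.2) ^ ((Nat.card Unit - 1) / 2)) = 1 :=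
    latDia_eq_one' rfl
  have hℓ := i.1.1.2
  have hcop := hℓ.coprime_iff_not_dvd.2 i.1.2
  rw [twT, Module.End.mul_apply, e, Module.End.one_apply, latT, embLat_transferEnd]
  rw [← one_smul K (∑ _, _), sum_heckeRepG_eq hℓ.ne_zero ((ZMod.isUnit_iff_coprime L _).2 hcop.symm)
    (periodic_embLat v) (b := (1 : K))]
  rw [sl_embLat (c := (1 : (ZMod L)ˣ →* Unit)) (diaMat_mem _) (ZMod.unitOfCoprime _ hcop)
    (diaMat_eleven _), latDia_eq_one' rfl, one_smul]
  rfl

set_option maxHeartbeats 1000000 in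
/-- A polynomial killing the classes of level `Γ₀(q m D)` with vanishing sums kills those of level
`q m`. -/
theorem lift_eq_zero (hqm : q.Coprime m) (hc : ∀ u, c' (ZMod.unitsMap (dvd_mul_left m q) u) = c u)
    (hD : D ∣ m) (hsq : Squarefree D)
    (hcD : ∀ u : (ZMod (q * m))ˣ, ((u : ZMod (q * m)).val : ZMod D) = 1 → c u = 1)
    (hodd : Odd (Nat.card Δ)) (W : FreeAlgebra O (GoodPrimeOff (q * m * D) (∅ : Set ℕ)))
    (hW : ∀ v : Lat (q * m * D) (1 : (ZMod (q * m * D))ˣ →* Unit) O,
      QNew q (m * D) (embLat (K := coeffField O) (mapLat (coeffMap O) v)) →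
        FreeAlgebra.lift O (opLow (M := q * m) (D := D) (O := O)) W v = 0)
    {x : Lat (q * m) c O} (hx : QNew q m (embLat (K := coeffField O) (mapLat (coeffMap O) x))) :
    FreeAlgebra.lift O (opTop c (D := D) (O := O)) W x = 0 := by
  classical
  set j := coeffMap O with hj
  have hqn : q.Coprime (m * D) := hqm.mul_right (Nat.Coprime.coprime_dvd_right hD hqm)
  have hL : q * m * D = q * (m * D) := mul_assoc q m D
  haveI : NeZero (q * (m * D)) := ⟨hL ▸ NeZero.ne (q * m * D)⟩
  obtain ⟨κ, _, o, W', hW'⟩ := exists_int_decomp W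
  -- the operators over `O` and over the field
  have key : ∀ {N : ℕ} [NeZero N] {Δ' : Type} [CommGroup Δ'] [Finite Δ'] (d : (ZMod N)ˣ →* Δ')
      (op : GoodPrimeOff (q * m * D) (∅ : Set ℕ) → GoodPrime N) (v : Lat N d O),
      mapLat j (FreeAlgebra.lift O (fun i => twT N d O (op i)) W v) =
        ∑ k, j (o k) • FreeAlgebra.lift ℤ (fun i => twT N d (coeffField O) (op i)) (W' k)
          (mapLat j v) := fun {N} _ {Δ'} _ _ d op v => by
    rw [hW' (Module.End O (Lat N d O)) (fun i => twT N d O (op i)), LinearMap.sum_apply, map_sum]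
    refine Finset.sum_congr rfl fun k _ => ?_
    rw [LinearMap.smul_apply, mapLat_smul]
    congr 1
    have h := (intertwine (fun i => (twT N d O (op i)).toAddMonoidHom.toIntLinearMap)
      (fun i => (twT N d (coeffField O) (op i)).toAddMonoidHom.toIntLinearMap)
      (mapLat j) (fun _ => True) (fun _ _ _ => trivial) (fun _ _ _ _ => trivial)
      (fun _ _ _ => trivial) (fun i x _ => mapLat_twT j _ x) (W' k) v trivial).2
    rwa [lift_intLinearMap, lift_intLinearMap] at h
  -- the germs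
  have hbase : ∀ F ∈ lv (q * m * D) (fun _ => (1 : coeffField O)), QNew q (m * D) F →
      evc ellOf W' (fun k => j (o k)) (fun _ => (1 : coeffField O)) (fun _ => (1 : coeffField O)) F = 0 := by
    intro F hF hFq
    obtain ⟨ι, _, φ, e, rfl, hφ⟩ := exists_lat_of_germ hL hqn hF hFq
    simp only [evc, map_sum, ev_smul, Finset.smul_sum]
    rw [Finset.sum_comm]
    refine Finset.sum_eq_zero fun i _ => ?_
    have h0 := key (1 : (ZMod (q * m * D))ˣ →* Unit)
      (fun i : GoodPrimeOff (q * m * D) (∅ : Set ℕ) => i.1) (φ i)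
    rw [show FreeAlgebra.lift O (fun i : GoodPrimeOff (q * m * D) (∅ : Set ℕ) =>
      twT (q * m * D) (1 : (ZMod (q * m * D))ˣ →* Unit) O i.1) W (φ i) = 0 from hW _ (hφ i),
      map_zero] at h0
    have h1 := congrArg (embLat (K := coeffField O)) h0.symm
    rw [map_zero, map_sum] at h1
    simp only [map_smul] at h1
    rw [← smul_zero (e i), ← h1, Finset.smul_sum]
    refine Finset.sum_congr rfl fun k _ => ?_
    rw [smul_comm]
    congr 2
    rw [← lift_intLinearMap]
    exact ((intertwine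
      (fun i : GoodPrimeOff (q * m * D) (∅ : Set ℕ) =>
        (twT (q * m * D) (1 : (ZMod (q * m * D))ˣ →* Unit) (coeffField O) i.1).toAddMonoidHom.toIntLinearMap)
      (opZ ellOf (fun _ => (1 : coeffField O)) (fun _ => (1 : coeffField O)))
      (embLat (K := coeffField O)).toAddMonoidHom (fun _ => True) (fun _ _ _ => trivial)
      (fun _ _ _ _ => trivial) (fun _ _ _ => trivial) (fun i v _ => embLat_twT_one i v)
      (W' k) (mapLat j (φ i)) trivial).2).symm
  -- stability
  set A2 := carrier_bM hqm hc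
  have hstab : Stable (K := coeffField O) (q * m * D) (QNew q (m * D)) := by
    rw [hL]; exact stable_qnew hqn
  have hup : ∀ w : Lat (q * m) c (coeffField O),
      Fixed (q * (m * D)) (embLat (K := coeffField O) w) ∧
        Fixed (q * (m * D)) (sl (K := coeffField O) (Tw.bM q 0) (embLat (K := coeffField O) w)) :=
    fun w => ⟨fixed_mono (Nat.mul_dvd_mul_left q (dvd_mul_right m D)) fun δ hδ => by
        rw [embLat_apply, sl_emb_self (NeZero.ne (q * m)) gamma_le_grp (gamma_le_grp hδ)],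
      fixed_mono (Nat.mul_dvd_mul_left q (dvd_mul_right m D)) (A2.fixed_germ w)⟩
  have hPd : ∀ (u : (ZMod (q * m))ˣ) (w : Lat (q * m) c (coeffField O)),
      QNew q (m * D) (embLat (K := coeffField O) w) →
        QNew q (m * D) (embLat (K := coeffField O) (latDia (q * m) c (coeffField O) u w)) := by
    intro u w hw
    obtain ⟨δ', -, -, eδ⟩ := A2.conj0 (diaMat u) (diaMat_mem u)
    have e : embLat (K := coeffField O) (latDia (q * m) c (coeffField O) u w) =
        ∑ _i : Unit, (1 : coeffField O) • sl (K := coeffField O) (diaMat u : IMat)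
          (embLat (K := coeffField O) w) := by
      rw [Fintype.sum_unique, one_smul, sl_embLat (c := c) (diaMat_mem u) u (diaMat_eleven u)]
    rw [e]
    refine qnew_sum hqn Finset.univ _ (fun _ => (diaMat u : IMat)) (fun _ => (δ' : IMat))
      (fun _ _ => ⟨det_coe_ne_zero _, ?_, eδ⟩) (hup w).1 (hup w).2 ?_ ?_ hw
    · rw [(diaMat u).det_coe]; exact_mod_cast (Fact.out : q.Prime).not_dvd_one
    · rw [← e]; exact (hup _).1
    · rw [← e]; exact (hup _).2
  have hxD : QNew q (m * D) (embLat (K := coeffField O) (mapLat j x)) := by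
    have hf := hup (mapLat j x)
    have h1 : Fixed (q * m) (embLat (K := coeffField O) (mapLat j x)) := fun δ hδ => by
      rw [embLat_apply, sl_emb_self (NeZero.ne (q * m)) gamma_le_grp (gamma_le_grp hδ)]
    exact ⟨by rw [avgQ_mono (dvd_mul_right m D) hqn h1, hx.1],
      by rw [avgQ_mono (dvd_mul_right m D) hqn (A2.fixed_germ _), hx.2]⟩
  have hfin := sum_lift_twOp_eq_zero (c := c) (dvd_mul_of_dvd_right hD q) hsq hcD hodd hstab hPd W'
    (fun k => j (o k)) hbase (mapLat j x) hxD
  refine mapLat_injective j (coeffMap_injective O) ?_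
  rw [map_zero, ← hfin]
  exact key c (fun i : GoodPrimeOff (q * m * D) (∅ : Set ℕ) => downPrime (dvd_mul_right (q * m) D) i.1) x

/-- The identities at level `q m`. -/
theorem exists_idents_tw {p : ℕ} [Fact p.Prime] [Algebra ℤ_[p] O] [Module.Finite ℤ_[p] O]
    (hqm : q.Coprime m) (hc : ∀ u, c' (ZMod.unitsMap (dvd_mul_left m q) u) = c u)
    (hD : D ∣ m) (hsq : Squarefree D)
    (hcD : ∀ u : (ZMod (q * m))ˣ, ((u : ZMod (q * m)).val : ZMod D) = 1 → c u = 1)
    (hodd : Odd (Nat.card Δ)) (hqp : q ≠ p)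
    {A : ValuationSubring (AlgebraicClosure ℚ)} (hA : A.LiesOverPrime q) {σ : GQ}
    (hσ : A.IsFrobeniusAt σ q) :
    ∃ k : ℕ, 0 < k ∧ ∀ x : Lat (q * m) c O,
      QNew q m (embLat (K := coeffField O) (mapLat (coeffMap O) x)) →
      (∀ a b : GQ, idMul (twTr (q * m) c p O) q σ k a b x = 0) ∧
      ∀ a : GQ, idTrace (twTr (q * m) c p O) q σ k (algebraMap O _ (chiO p O a)) a x = 0 := by
  have hqn : q.Coprime (m * D) := hqm.mul_right (Nat.Coprime.coprime_dvd_right hD hqm)
  haveI : NeZero (q * (m * D)) := ⟨mul_assoc q m D ▸ NeZero.ne (q * m * D)⟩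
  obtain ⟨k, hk, h⟩ := exists_idents_of_eq (p := p) (O := O) (mul_assoc q m D) hqn hqp hA hσ
  choose Wt hlow htop using fun g => exists_poly_twTr (p := p) (O := O) (M := q * m) (D := D)
    (c := c) hodd g
  refine ⟨k, hk, fun x hx => ⟨fun a b => ?_, fun a => ?_⟩⟩
  · have h0 := lift_eq_zero hqm hc hD hsq hcD hodd (idMul Wt q σ k a b) (fun v hv => ?_) hx
    · refine Eq.trans (LinearMap.congr_fun ?_ x) h0
      simp only [idMul, eOp, vOp, map_mul, map_sub, map_pow, map_natCast, map_one, htop]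
    · refine Eq.trans (LinearMap.congr_fun ?_ v) ((h v hv).1 a b)
      simp only [idMul, eOp, vOp, map_mul, map_sub, map_pow, map_natCast, map_one, hlow]
  · have h0 := lift_eq_zero hqm hc hD hsq hcD hodd
      (idTrace Wt q σ k (algebraMap O _ (chiO p O a)) a) (fun v hv => ?_) hx
    · refine Eq.trans (LinearMap.congr_fun ?_ x) h0
      simp only [idTrace, eOp, vOp, map_mul, map_sub, map_add, map_pow, map_natCast, map_one, htop,
        AlgHom.commutes]
    · refine Eq.trans (LinearMap.congr_fun ?_ v) ((h v hv).2 a)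
      simp only [idTrace, eOp, vOp, map_mul, map_sub, map_add, map_pow, map_natCast, map_one, hlow,
        AlgHom.commutes]

end Transfer

end Fermat.Agent.Auto.Qn
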