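import Fermat.Agent.Auto.Qnew.Avg
import Fermat.Agent.Auto.Twist

/-!
The two trace maps from level `q m` to level `m` and their germs.
-/

set_option autoImplicit false
set_option linter.unusedSectionVars false

noncomputable section

namespace Fermat.Agent.Auto.Qn

open CongruenceSubgroup IsLocalRing
open Fermat.Agent.GalRep (IMat GoodPrime)
open Fermat.Agent.GalRep.Level (red red_eq_one_iff heckeRepG IsDiamond det_heckeRepG)
open Fermat.Agent.DS (diaMat diaMat_mem diaMat_eleven isDiamond_diaMat_prime)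
open Fermat.Agent.Auto.Tw (Germ sl sl_mul sl_germ germ germ_eq cj_eq bM dM det_bM det_dM embLat
  embLat_apply embLat_injective embLat_transferEnd sl_embLat sl_emb_self emb eq_of_mul_eq mapLat
  mapLat_injective mapLat_transferEnd exists_conj_gamma gamma_le_gamma sum_range_mul sl_bM_add
  Periodic tM)
open scoped MatrixGroups

variable {q m : ℕ} [NeZero q] [NeZero m] [NeZero (q * m)] [Fact q.Prime] {Δ : Type} [CommGroup Δ]
  [Finite Δ] {c : (ZMod (q * m))ˣ →* Δ} {c' : (ZMod m)ˣ →* Δ}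

/-- A matrix carrying `grp m c' ∩ Γ(q)` into `grp (q m) c`, and compatible with the operators. -/
structure Carrier (A : IMat) (c : (ZMod (q * m))ˣ →* Δ) (c' : (ZMod m)ˣ →* Δ) : Prop where
  coprime : q.Coprime m
  det_ne : A.det ≠ 0
  conj : ∀ γ ∈ grp m c' ⊓ Gamma q, ∃ δ ∈ grp (q * m) c, (δ : IMat) * A = A * (γ : IMat)
  conj0 : ∀ δ ∈ Gamma0 (q * m), ∃ δ' ∈ Gamma0 m,
    ((δ' 1 1 : ℤ) : ZMod m) = (δ 1 1 : ℤ) ∧ (δ : IMat) * A = A * (δ' : IMat)
  conj_dM : ∀ ℓ : ℕ, dM ℓ * A = A * dM ℓ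
  conj_bM : ∃ k : ℕ, k ∣ q ∧ ∀ (ℓ : ℕ) (x : ℤ), bM ℓ x * A = A * bM ℓ ((k : ℤ) * x)

theorem pow_card_mem (γ : SL(2, ℤ)) : red q (γ ^ Fintype.card SL(2, ZMod q)) = 1 := by
  rw [map_pow, pow_card_eq_one]

theorem lft_mem_grp (hqm : q.Coprime m) (x : SL(2, ZMod q)) : lft q m x ∈ grp m c' :=
  gamma_le_grp (lft_spec hqm x).2

/-- The translate that lands in `Γ(q)`. -/
def gco (q m : ℕ) [NeZero q] (x : SL(2, ZMod q)) (γ : SL(2, ℤ)) : SL(2, ℤ) :=
  lft q m x * γ * (lft q m (x * red q γ))⁻¹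

theorem gco_mem (hqm : q.Coprime m) (x : SL(2, ZMod q)) {γ : SL(2, ℤ)} (hγ : γ ∈ grp m c') :
    gco q m x γ ∈ grp m c' ⊓ Gamma q :=
  ⟨(grp m c').mul_mem ((grp m c').mul_mem (lft_mem_grp hqm x) hγ)
      ((grp m c').inv_mem (lft_mem_grp hqm _)),
    red_eq_one_iff.mp (by
      rw [gco, map_mul, map_mul, map_inv, (lft_spec hqm _).1, (lft_spec hqm _).1, mul_inv_cancel])⟩

theorem gco_mul (x : SL(2, ZMod q)) (a b : SL(2, ℤ)) :
    gco q m x (a * b) = gco q m x a * gco q m (x * red q a) b := by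
  simp only [gco, map_mul, mul_assoc, inv_mul_cancel_left]

variable {A : IMat} (hA : Carrier A c c')

/-- The transported element. -/
def Carrier.phi (γ : ↥(grp m c' ⊓ Gamma q)) : grp (q * m) c :=
  ⟨(hA.conj γ.1 γ.2).choose, (hA.conj γ.1 γ.2).choose_spec.1⟩

theorem Carrier.phi_spec (γ : ↥(grp m c' ⊓ Gamma q)) :
    ((hA.phi γ : SL(2, ℤ)) : IMat) * A = A * ((γ : SL(2, ℤ)) : IMat) :=
  (hA.conj γ.1 γ.2).choose_spec.2

theorem Carrier.phi_unique {γ : ↥(grp m c' ⊓ Gamma q)} {δ : grp (q * m) c}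
    (h : ((δ : SL(2, ℤ)) : IMat) * A = A * ((γ : SL(2, ℤ)) : IMat)) : hA.phi γ = δ :=
  Subtype.ext (Subtype.ext (eq_of_mul_eq hA.det_ne ((hA.phi_spec γ).trans h.symm)))

theorem Carrier.phi_mul (a b : ↥(grp m c' ⊓ Gamma q)) : hA.phi (a * b) = hA.phi a * hA.phi b :=
  hA.phi_unique (by
    rw [Subgroup.coe_mul, Matrix.SpecialLinearGroup.coe_mul, mul_assoc, hA.phi_spec b, ← mul_assoc,
      hA.phi_spec a, mul_assoc, ← Matrix.SpecialLinearGroup.coe_mul]
    rfl)

theorem Carrier.phi_trace (a : ↥(grp m c' ⊓ Gamma q)) :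
    ((hA.phi a : SL(2, ℤ)) : IMat).trace = ((a : SL(2, ℤ)) : IMat).trace := by
  have h2 := congrArg (fun X => (A.adjugate * X).trace) (hA.phi_spec a)
  simp only [← Matrix.mul_assoc, Matrix.adjugate_mul, Matrix.smul_mul, Matrix.one_mul,
    Matrix.trace_smul] at h2
  rw [Matrix.trace_mul_comm, ← Matrix.mul_assoc, Matrix.mul_adjugate, Matrix.smul_mul,
    Matrix.one_mul, Matrix.trace_smul] at h2
  exact mul_left_cancel₀ hA.det_ne h2

variable {R : Type} [CommRing R]

/-- The sum over the translates of the transported values. -/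
def Carrier.sumHom (v : Lat (q * m) c R) : Additive (grp m c') →+ R :=
  AddMonoidHom.mk' (fun γ => ∑ x : SL(2, ZMod q), (v : Additive (grp (q * m) c) →+ R)
      (Additive.ofMul (hA.phi ⟨gco q m x (γ.toMul : SL(2, ℤ)), gco_mem hA.coprime x γ.toMul.2⟩)))
    fun a b => by
      have e : ∀ x, hA.phi ⟨gco q m x ((a + b).toMul : SL(2, ℤ)), gco_mem hA.coprime x (a + b).toMul.2⟩ =
          hA.phi ⟨gco q m x (a.toMul : SL(2, ℤ)), gco_mem hA.coprime x a.toMul.2⟩ *
            hA.phi ⟨gco q m (x * red q (a.toMul : SL(2, ℤ))) (b.toMul : SL(2, ℤ)),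
              gco_mem hA.coprime _ b.toMul.2⟩ := fun x => by
        rw [← hA.phi_mul]
        exact congrArg hA.phi (Subtype.ext (gco_mul x _ _))
      simp only [e, ofMul_mul, map_add, Finset.sum_add_distrib]
      congr 1
      exact Equiv.sum_comp (Equiv.mulRight (red q (a.toMul : SL(2, ℤ))))
        fun y => (v : Additive (grp (q * m) c) →+ R)
          (Additive.ofMul (hA.phi ⟨gco q m y (b.toMul : SL(2, ℤ)), gco_mem hA.coprime y b.toMul.2⟩))

theorem Carrier.sumHom_apply (v : Lat (q * m) c R) (γ : grp m c') :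
    hA.sumHom v (Additive.ofMul γ) = ∑ x : SL(2, ZMod q), (v : Additive (grp (q * m) c) →+ R)
      (Additive.ofMul (hA.phi ⟨gco q m x γ, gco_mem hA.coprime x γ.2⟩)) := rfl

variable [IsDomain R] [CharZero R]

/-- The trace map. -/
def Carrier.traceMap : Lat (q * m) c R →ₗ[R] Lat m c' R where
  toFun v := ⟨hA.sumHom v, fun γ hγ => by
    set n := Fintype.card SL(2, ZMod q)
    refine smul_right_injective R (Fintype.card_ne_zero : n ≠ 0) ?_
    show n • _ = n • (0 : R)
    rw [smul_zero, ← map_nsmul, ← ofMul_pow, hA.sumHom_apply]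
    refine Finset.sum_eq_zero fun x _ => v.2 _ ?_
    show ((hA.phi _ : SL(2, ℤ)) : IMat).trace ^ 2 = 4
    rw [hA.phi_trace]
    show ((gco q m x ((γ ^ n : grp m c') : SL(2, ℤ)) : SL(2, ℤ)) : IMat).trace ^ 2 = 4
    rw [Subgroup.coe_pow, gco, pow_card_mem, mul_one, Matrix.SpecialLinearGroup.coe_mul,
      Matrix.trace_mul_comm, ← Matrix.SpecialLinearGroup.coe_mul, inv_mul_cancel_left,
      Matrix.SpecialLinearGroup.coe_pow]
    exact GalRep.trace_pow_sq_eq_four _ (γ : SL(2, ℤ)).det_coe hγ n⟩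
  map_add' v w := lat_ext_apply fun γ => by
    show hA.sumHom (v + w) _ = hA.sumHom v _ + hA.sumHom w _
    simp only [hA.sumHom_apply, ← Finset.sum_add_distrib]
    rfl
  map_smul' r v := lat_ext_apply fun γ => by
    show hA.sumHom (r • v) _ = r * hA.sumHom v _
    simp only [hA.sumHom_apply, Finset.mul_sum]
    rfl

theorem Carrier.coe_traceMap (v : Lat (q * m) c R) :
    ((hA.traceMap v : Lat m c' R) : Additive (grp m c') →+ R) = hA.sumHom v := rfl

theorem Carrier.mapLat_traceMap {R' : Type} [CommRing R'] [IsDomain R'] [CharZero R'] (j : R →+* R')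
    (v : Lat (q * m) c R) : mapLat j (hA.traceMap v) = hA.traceMap (mapLat j v) :=
  lat_ext_apply fun γ => by
    show j (hA.sumHom v _) = hA.sumHom (mapLat j v) _
    simp only [hA.sumHom_apply, map_sum]
    rfl

section Field

variable {K : Type} [Field K] [CharZero K]

include hA in
theorem Carrier.fixed_germ (v : Lat (q * m) c K) :
    Fixed (q * m) (sl (K := K) A (embLat (K := K) v)) := fun γ hγ => by
  obtain ⟨δ, hδ, e⟩ := hA.conj γ ⟨gamma_le_grp (gamma_le_gamma (dvd_mul_left m q) hγ),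
    gamma_le_gamma (dvd_mul_right q m) hγ⟩
  rw [sl_mul hA.det_ne (det_coe_ne_zero γ), ← e, ← sl_mul (det_coe_ne_zero δ) hA.det_ne, embLat_apply,
    sl_emb_self (NeZero.ne (q * m)) gamma_le_grp hδ]

/-- The germ of the trace is the sum of the translates. -/
theorem Carrier.embLat_traceMap (v : Lat (q * m) c K) :
    embLat (K := K) (hA.traceMap v) = avgQ K q m (sl (K := K) A (embLat (K := K) v)) := by
  classical
  have hd : ∀ x, (A * (lft q m x : IMat)).det ≠ 0 := fun x => by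
    rw [Matrix.det_mul]; exact mul_ne_zero hA.det_ne (det_coe_ne_zero _)
  rw [avgQ_apply, Finset.sum_congr rfl fun x _ => sl_mul hA.det_ne (det_coe_ne_zero _) _]
  simp only [embLat_apply, emb, LinearMap.coe_mk, AddHom.coe_mk, sl_germ (hd _)]
  show germ _ = ∑ x, (Tw.germNull K).mkQ _
  rw [← map_sum, Submodule.mkQ_apply]
  refine germ_eq (NeZero.ne (q * m)) fun γ hγ => ?_
  have hγH : γ ∈ grp m c' := gamma_le_grp (gamma_le_gamma (dvd_mul_left m q) hγ)
  rw [dif_pos hγH, hA.coe_traceMap, hA.sumHom_apply, Finset.sum_apply]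
  refine Finset.sum_congr rfl fun x _ => ?_
  have hred : red q γ = 1 := red_eq_one_iff.mpr (gamma_le_gamma (dvd_mul_right q m) hγ)
  have e : ((hA.phi ⟨gco q m x γ, gco_mem hA.coprime x hγH⟩ : SL(2, ℤ)) : IMat) * (A * (lft q m x : IMat)) =
      A * (lft q m x : IMat) * (γ : IMat) := by
    rw [← mul_assoc, hA.phi_spec, mul_assoc, mul_assoc, ← Matrix.SpecialLinearGroup.coe_mul,
      ← Matrix.SpecialLinearGroup.coe_mul]
    simp [gco, hred]
  rw [cj_eq (hd x) e, dif_pos (hA.phi _).2]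

theorem periodic_embLat {N : ℕ} [NeZero N] {d : (ZMod N)ˣ →* Δ} (v : Lat N d K) :
    Periodic (embLat (K := K) v) := fun n => by
  have hn : ModularGroup.T ^ n ∈ Gamma0 N := by
    rw [Gamma0_mem, ModularGroup.coe_T_zpow]; simp
  have h := sl_embLat (c := d) hn 1 (by rw [ModularGroup.coe_T_zpow]; simp) v
  rw [ModularGroup.coe_T_zpow, latDia_eq_one' (map_one d)] at h
  exact h

theorem Carrier.traceMap_latT_field (ℓ : GoodPrime (q * m)) (v : Lat (q * m) c K) :
    hA.traceMap (latT (q * m) c K ℓ v) =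
      latT m c' K (downPrime (dvd_mul_left m q) ℓ) (hA.traceMap v) := by
  classical
  set l : ℕ := (ℓ : ℕ)
  have hl : l.Prime := ℓ.1.2
  have hlL : ¬ l ∣ q * m := ℓ.2
  have hlq : ¬ l ∣ q := fun h => hlL (h.mul_right m)
  have hlm : ¬ l ∣ m := fun h => hlL (h.mul_left q)
  have hql : ¬ (q : ℤ) ∣ (l : ℤ) := fun h => hlq (by
    rw [(Nat.prime_dvd_prime_iff_eq (Fact.out : q.Prime) hl).mp (Int.natCast_dvd_natCast.mp h)])
  obtain ⟨k, hk, hbM⟩ := hA.conj_bM
  set R₀ := diaMat (ZMod.unitOfCoprime l (hl.coprime_iff_not_dvd.2 hlL))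
  set R₁ := diaMat (ZMod.unitOfCoprime l (hl.coprime_iff_not_dvd.2 hlm))
  have hR₀ : IsDiamond (q * m) l R₀ := isDiamond_diaMat_prime _
  obtain ⟨R', hR', h11, eR⟩ := hA.conj0 R₀ (DS.diamond_mem_gamma0 hR₀)
  set G := sl (K := K) A (embLat (K := K) v)
  set H := embLat (K := K) (hA.traceMap v)
  let β : Option (Fin l) → IMat
    | none => (R' : IMat) * dM l
    | some b => bM l ((k : ℤ) * ((b : ℤ) * ((q * m : ℕ) : ℤ)))
  have hβ : ∀ i, heckeRepG (q * m) l R₀ i * A = A * β i := by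
    rintro (_ | b)
    · show (R₀ : IMat) * dM l * A = A * ((R' : IMat) * dM l)
      rw [mul_assoc, hA.conj_dM, ← mul_assoc, eR, mul_assoc]
    · exact hbM l _
  have hdβ : ∀ i, (β i).det = l := fun i => by
    have h := congrArg Matrix.det (hβ i)
    rw [Matrix.det_mul, Matrix.det_mul, det_heckeRepG, mul_comm] at h
    exact (mul_left_cancel₀ hA.det_ne h).symm
  haveI : NeZero (m * l) := ⟨mul_ne_zero (NeZero.ne m) hl.ne_zero⟩
  have hql' : q.Coprime (m * l) := hA.coprime.mul_right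
    ((Fact.out : q.Prime).coprime_iff_not_dvd.2 fun h => hql (Int.natCast_dvd_natCast.mpr h))
  have key : embLat (K := K) (hA.traceMap (latT (q * m) c K ℓ v)) = ∑ i, sl (K := K) (β i) H := by
    have hf := hA.fixed_germ (latT (q * m) c K ℓ v)
    have e : sl (K := K) A (embLat (K := K) (latT (q * m) c K ℓ v)) = ∑ i, sl (K := K) (β i) G := by
      rw [latT, embLat_transferEnd, map_sum]
      refine Finset.sum_congr rfl fun i => fun _ => ?_
      have hd : (heckeRepG (q * m) l R₀ i).det ≠ 0 := by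
        rw [det_heckeRepG]; exact_mod_cast hl.ne_zero
      rw [sl_mul hd hA.det_ne, hβ i, ← sl_mul hA.det_ne (by rw [hdβ i]; exact_mod_cast hl.ne_zero)]
    rw [hA.embLat_traceMap, ← avgQ_mono (dvd_mul_right m l) hql' hf, e, map_sum]
    refine Finset.sum_congr rfl fun i _ => ?_
    show _ = sl (K := K) (β i) (embLat (K := K) (hA.traceMap v))
    rw [hA.embLat_traceMap]
    have h := avgQ_sl (K := K) hA.coprime (g := β i) (by rw [hdβ i]; exact_mod_cast hl.ne_zero)
      (by rw [hdβ i]; exact hql) (hA.fixed_germ v)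
    rwa [hdβ i, Int.natAbs_natCast] at h
  refine embLat_injective (K := K) (key.trans ?_)
  rw [latT, embLat_transferEnd, Fintype.sum_option, Fintype.sum_option]
  congr 1
  · show sl (K := K) ((R' : IMat) * dM l) H = sl (K := K) ((R₁ : IMat) * dM l) H
    have hd0 := det_dM hl.ne_zero
    set u := ZMod.unitOfCoprime l (hl.coprime_iff_not_dvd.2 hlm)
    have e0 : ((R' 1 1 : ℤ) : ZMod m) = u := by
      rw [h11, ZMod.coe_unitOfCoprime]
      have := congrArg (ZMod.castHom (dvd_mul_left m q) (ZMod m)) hR₀.2.2.2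
      rwa [map_intCast, map_natCast] at this
    rw [← sl_mul (det_coe_ne_zero _) hd0, ← sl_mul (det_coe_ne_zero _) hd0,
      sl_embLat (c := c') hR' u e0, sl_embLat (c := c') (diaMat_mem u) u (diaMat_eleven u)]
  · haveI : NeZero l := ⟨hl.ne_zero⟩
    let g : ℤ → Germ K := fun x => sl (K := K) (bM l x) H
    have hg : ∀ x s, g (x + s * l) = g x := sl_bM_add hl.ne_zero (periodic_embLat _)
    have red : ∀ a : ℕ, ¬ l ∣ a →
        ∑ b : Fin l, g ((a : ℤ) * ((b : ℕ) : ℤ)) = ∑ j ∈ Finset.range l, g (j : ℤ) := fun a ha => by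
      rw [Fin.sum_univ_eq_sum_range (fun j : ℕ => g ((a : ℤ) * (j : ℤ)))]
      have hu : IsUnit (a : ZMod l) :=
        (ZMod.isUnit_iff_coprime a l).2 (hl.coprime_iff_not_dvd.2 ha).symm
      exact sum_range_mul g hg (by simpa using hu)
    calc ∑ b : Fin l, sl (K := K) (β (some b)) H
        = ∑ b : Fin l, g (((k * (q * m) : ℕ) : ℤ) * ((b : ℕ) : ℤ)) :=
          Finset.sum_congr rfl fun b _ => congrArg g (by push_cast; ring)
      _ = ∑ j ∈ Finset.range l, g (j : ℤ) :=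
          red _ fun h => (hl.dvd_mul.mp h).elim (fun h => hlq (h.trans hk)) hlL
      _ = ∑ b : Fin l, g ((m : ℤ) * ((b : ℕ) : ℤ)) := (red m hlm).symm
      _ = _ := Finset.sum_congr rfl fun b _ => congrArg (fun M : IMat => sl (K := K) M H) (by
          show bM l _ = _
          simp [heckeRepG, bM, mul_comm]
          rfl)

end Field

variable {O : Type} [CommRing O] [IsDomain O] [CharZero O]

theorem Carrier.traceMap_latT (ℓ : GoodPrime (q * m)) (v : Lat (q * m) c O) :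
    hA.traceMap (latT (q * m) c O ℓ v) =
      latT m c' O (downPrime (dvd_mul_left m q) ℓ) (hA.traceMap v) := by
  refine mapLat_injective (coeffMap O) (coeffMap_injective O) ?_
  rw [hA.mapLat_traceMap, latT, mapLat_transferEnd, latT, mapLat_transferEnd, hA.mapLat_traceMap]
  exact hA.traceMap_latT_field ℓ _

variable [IsLocalRing O]

theorem Carrier.traceMap_mem_latLoc {S : Finset ℕ} {a : ℕ → O}
    (hMS : ∀ l : ℕ, l.Prime → l ∣ q * m → l ∈ S) {x : Lat (q * m) c O}
    (hx : x ∈ latLoc (q * m) c O S a) : hA.traceMap x ∈ latLoc m c' O S a := fun i k => by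
  let i' : PrimeOff (q * m) S :=
    ⟨⟨i.1.1, fun h => i.2 (hMS _ i.1.1.2 h)⟩, i.2⟩
  refine (map_mem_locPart (T := fun _ : Unit => latT (q * m) c O i'.1)
    (T' := fun _ : Unit => latT m c' O i.1) (a := fun _ => a ((i.1 : Nat.Primes) : ℕ)) hA.traceMap
    (fun _ y => ?_) (fun _ k => hx i' k)) () k
  rw [hA.traceMap_latT]
  rfl

/-! ### The two traces -/

theorem mem_grp_of_lower (hc : ∀ u, c' (ZMod.unitsMap (dvd_mul_left m q) u) = c u) {δ γ : SL(2, ℤ)}
    (hδ : δ ∈ Gamma0 (q * m)) (hγ : γ ∈ grp m c') (h : δ 1 1 = γ 1 1) : δ ∈ grp (q * m) c :=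
  ⟨hδ, fun u hu => by
    rw [← hc]
    refine hγ.2 _ ?_
    rw [ZMod.unitsMap_def, Units.coe_map]
    show ZMod.castHom (dvd_mul_left m q) (ZMod m) (u : ZMod (q * m)) = _
    rw [hu, map_intCast, h]⟩

theorem mem_gamma0_mul (hqm : q.Coprime m) {γ : SL(2, ℤ)} (h1 : (q : ℤ) ∣ γ 1 0)
    (h2 : γ ∈ Gamma0 m) : γ ∈ Gamma0 (q * m) := by
  rw [Gamma0_mem] at h2 ⊢
  rw [ZMod.intCast_zmod_eq_zero_iff_dvd] at h2 ⊢
  push_cast
  exact IsCoprime.mul_dvd (Nat.isCoprime_iff_coprime.mpr hqm) h1 h2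

/-- The plain trace. -/
theorem carrier_one (hqm : q.Coprime m) (hc : ∀ u, c' (ZMod.unitsMap (dvd_mul_left m q) u) = c u) :
    Carrier (1 : IMat) c c' where
  coprime := hqm
  det_ne := by rw [Matrix.det_one]; exact one_ne_zero
  conj γ hγ := by
    refine ⟨γ, mem_grp_of_lower hc (mem_gamma0_mul hqm ?_ hγ.1.1) hγ.1 rfl, by rw [mul_one, one_mul]⟩
    exact (ZMod.intCast_zmod_eq_zero_iff_dvd _ _).mp (Gamma_mem.mp hγ.2).2.2.1
  conj0 δ hδ := ⟨δ, Newform.mem_Gamma0_iff_dvd.mpr ((Int.natCast_dvd_natCast.mpr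
    (dvd_mul_left m q)).trans (Newform.mem_Gamma0_iff_dvd.mp hδ)), rfl, by rw [mul_one, one_mul]⟩
  conj_dM _ := by rw [mul_one, one_mul]
  conj_bM := ⟨1, one_dvd q, fun _ x => by rw [mul_one, one_mul, Nat.cast_one, one_mul]⟩

/-- The trace after `diag(1, q)`. -/
theorem carrier_bM (hqm : q.Coprime m) (hc : ∀ u, c' (ZMod.unitsMap (dvd_mul_left m q) u) = c u) :
    Carrier (bM q 0) c c' where
  coprime := hqm
  det_ne := det_bM (NeZero.ne q) 0
  conj γ hγ := by
    obtain ⟨b, hb⟩ := (ZMod.intCast_zmod_eq_zero_iff_dvd _ _).mp (Gamma_mem.mp hγ.2).2.1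
    refine ⟨⟨!![γ 0 0, b; (q : ℤ) * γ 1 0, γ 1 1], ?_⟩, mem_grp_of_lower hc
      (mem_gamma0_mul hqm (dvd_mul_right _ _) (Gamma0_mem.mpr ?_)) hγ.1 rfl, ?_⟩
    · have := γ.det_coe
      rw [Matrix.det_fin_two, hb] at this
      rw [Matrix.det_fin_two_of]
      linear_combination this
    · show (((q : ℤ) * γ 1 0 : ℤ) : ZMod m) = 0
      rw [Int.cast_mul, Gamma0_mem.mp hγ.1.1, mul_zero]
    · ext i j; fin_cases i <;> fin_cases j <;>
        simp [bM, Matrix.mul_apply, Fin.sum_univ_two, hb] <;> ring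
  conj0 δ hδ := by
    obtain ⟨c₁, hc₁⟩ := Newform.mem_Gamma0_iff_dvd.mp hδ
    push_cast at hc₁
    refine ⟨⟨!![δ 0 0, (q : ℤ) * δ 0 1; (m : ℤ) * c₁, δ 1 1], ?_⟩,
      Newform.mem_Gamma0_iff_dvd.mpr ⟨c₁, rfl⟩, rfl, ?_⟩
    · have := δ.det_coe
      rw [Matrix.det_fin_two, hc₁] at this
      rw [Matrix.det_fin_two_of]
      linear_combination this
    · ext i j; fin_cases i <;> fin_cases j <;>
        simp [bM, Matrix.mul_apply, Fin.sum_univ_two, hc₁] <;> ring
  conj_dM _ := by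
    ext i j; fin_cases i <;> fin_cases j <;> simp [bM, dM, Matrix.mul_apply, Fin.sum_univ_two]
  conj_bM := ⟨q, dvd_rfl, fun _ x => by
    ext i j; fin_cases i <;> fin_cases j <;>
      simp [bM, Matrix.mul_apply, Fin.sum_univ_two] <;> ring⟩

/-- Where both traces vanish the translate sums vanish. -/
theorem qnew_of_traces {O : Type} [CommRing O] [IsDomain O] [CharZero O] (hqm : q.Coprime m)
    (hc : ∀ u, c' (ZMod.unitsMap (dvd_mul_left m q) u) = c u) (x : Lat (q * m) c O)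
    (h1 : (carrier_one hqm hc).traceMap x = 0) (h2 : (carrier_bM hqm hc).traceMap x = 0) :
    QNew q m (embLat (K := coeffField O) (mapLat (coeffMap O) x)) := by
  constructor
  · have h := (carrier_one hqm hc).embLat_traceMap (mapLat (coeffMap O) x)
    rw [← Carrier.mapLat_traceMap, h1, map_zero, map_zero, Tw.sl_one] at h
    exact h.symm
  · have h := (carrier_bM hqm hc).embLat_traceMap (mapLat (coeffMap O) x)
    rw [← Carrier.mapLat_traceMap, h2, map_zero, map_zero] at h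
    exact h.symm

end Fermat.Agent.Auto.Qn
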